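import Fermat.Agent.S59.TW.Aut.H673.FrontCore
import Fermat.Agent.S59.G4.H109.PointsDVR

/-!
# S59 / cell TW, AUT leaf CMP, part (R), FRONT — the point of a prime  (helper673)

`exists_dvr_point` : `B` a finite algebra over a complete discrete valuation ring `𝒪` of
characteristic zero with finite residue field, `𝔔` a prime of `B` with `𝔔 ∩ 𝒪 = 0`.  Then there
are a complete discrete valuation ring `𝒪'` (characteristic zero, finite residue field, local over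
`𝒪`) and an `𝒪`-algebra homomorphism `ev : B → 𝒪'` with kernel `𝔔`.
(`𝒪'` = the integral closure of `𝒪` in `Frac (B ⧸ 𝔔)`, helper109 `PointsDVR`.)
-/

set_option autoImplicit false
set_option linter.style.haveILetI false

open IsLocalRing

namespace Fermat.Agent.S59.TW.Aut.H673

open Fermat.Agent.S59.G4.H109

attribute [local instance] FractionRing.liftAlgebra

theorem exists_dvr_point
    (𝒪 : Type) [CommRing 𝒪] [IsDomain 𝒪] [IsDiscreteValuationRing 𝒪]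
    [IsAdicComplete (maximalIdeal 𝒪) 𝒪] [Finite (ResidueField 𝒪)] [CharZero 𝒪]
    (B : Type) [CommRing B] [Algebra 𝒪 B] [Module.Finite 𝒪 B]
    (𝔔 : Ideal B) [𝔔.IsPrime] (h𝔔 : ∀ c : 𝒪, algebraMap 𝒪 B c ∈ 𝔔 → c = 0) :
    ∃ (𝒪' : Type) (_ : CommRing 𝒪') (_ : IsDomain 𝒪') (_ : IsDiscreteValuationRing 𝒪')
      (_ : IsAdicComplete (maximalIdeal 𝒪') 𝒪') (_ : Finite (ResidueField 𝒪')) (_ : CharZero 𝒪')
      (_ : Algebra 𝒪 𝒪') (ev : B →ₐ[𝒪] 𝒪'),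
      IsLocalHom (algebraMap 𝒪 𝒪') ∧ Function.Injective (algebraMap 𝒪 𝒪') ∧
        ∀ b, ev b = 0 ↔ b ∈ 𝔔 := by
  classical
  -- the domain `D = B ⧸ 𝔔`
  haveI : IsDomain (B ⧸ 𝔔) := Ideal.Quotient.isDomain 𝔔
  have hinj : Function.Injective (algebraMap 𝒪 (B ⧸ 𝔔)) := by
    rw [injective_iff_map_eq_zero]
    intro c hc
    have h1 : algebraMap 𝒪 (B ⧸ 𝔔) c = Ideal.Quotient.mk 𝔔 (algebraMap 𝒪 B c) := rfl
    rw [h1, Ideal.Quotient.eq_zero_iff_mem] at hc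
    exact h𝔔 c hc
  haveI : FaithfulSMul 𝒪 (B ⧸ 𝔔) := (faithfulSMul_iff_algebraMap_injective 𝒪 (B ⧸ 𝔔)).mpr hinj
  haveI : Module.Finite 𝒪 (B ⧸ 𝔔) := Module.Finite.of_surjective
    (Ideal.Quotient.mkₐ 𝒪 𝔔).toLinearMap (Ideal.Quotient.mkₐ_surjective 𝒪 𝔔)
  haveI : Algebra.IsIntegral 𝒪 (B ⧸ 𝔔) := Algebra.IsIntegral.of_finite 𝒪 (B ⧸ 𝔔)
  haveI : Algebra.IsAlgebraic 𝒪 (B ⧸ 𝔔) := Algebra.IsIntegral.isAlgebraic
  haveI : FaithfulSMul 𝒪 (FractionRing (B ⧸ 𝔔)) := by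
    rw [faithfulSMul_iff_algebraMap_injective]
    rw [IsScalarTower.algebraMap_eq 𝒪 (B ⧸ 𝔔) (FractionRing (B ⧸ 𝔔))]
    exact (IsFractionRing.injective (B ⧸ 𝔔) (FractionRing (B ⧸ 𝔔))).comp hinj
  haveI : Module.Finite (FractionRing 𝒪) (FractionRing (B ⧸ 𝔔)) :=
    Module.Finite.of_isLocalization 𝒪 (B ⧸ 𝔔) (nonZeroDivisors 𝒪)
  -- the ring of integers
  haveI := intRingO_isLocalRing 𝒪 (FractionRing 𝒪) (FractionRing (B ⧸ 𝔔))
  have hint : ∀ b : B, IsIntegral 𝒪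
      (algebraMap (B ⧸ 𝔔) (FractionRing (B ⧸ 𝔔)) (Ideal.Quotient.mk 𝔔 b)) := fun b =>
    (Algebra.IsIntegral.isIntegral (R := 𝒪) (Ideal.Quotient.mk 𝔔 b)).map
      (IsScalarTower.toAlgHom 𝒪 (B ⧸ 𝔔) (FractionRing (B ⧸ 𝔔)))
  let ev₀ : B →ₐ[𝒪] FractionRing (B ⧸ 𝔔) :=
    (IsScalarTower.toAlgHom 𝒪 (B ⧸ 𝔔) (FractionRing (B ⧸ 𝔔))).comp (Ideal.Quotient.mkₐ 𝒪 𝔔)
  let ev : B →ₐ[𝒪] intRingO 𝒪 (FractionRing (B ⧸ 𝔔)) :=
    ev₀.codRestrict (intRingO 𝒪 (FractionRing (B ⧸ 𝔔))) (fun b => hint b)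
  refine ⟨intRingO 𝒪 (FractionRing (B ⧸ 𝔔)), inferInstance, inferInstance,
    intRingO_isDiscreteValuationRing 𝒪 (FractionRing 𝒪) (FractionRing (B ⧸ 𝔔)),
    intRingO_isAdicComplete 𝒪 (FractionRing 𝒪) (FractionRing (B ⧸ 𝔔)),
    intRingO_finite_residueField 𝒪 (FractionRing 𝒪) (FractionRing (B ⧸ 𝔔)),
    intRingO_charZero 𝒪 (FractionRing 𝒪) (FractionRing (B ⧸ 𝔔)), inferInstance, ev,
    intRingO_isLocalHom 𝒪 (FractionRing 𝒪) (FractionRing (B ⧸ 𝔔)),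
    algebraMap_intRingO_injective 𝒪 (FractionRing 𝒪) (FractionRing (B ⧸ 𝔔)), fun b => ?_⟩
  constructor
  · intro h
    have h1 : ev₀ b = 0 := by
      have := congrArg Subtype.val h
      simpa [ev] using this
    have h2 : algebraMap (B ⧸ 𝔔) (FractionRing (B ⧸ 𝔔)) (Ideal.Quotient.mk 𝔔 b) = 0 := h1
    rw [map_eq_zero_iff _ (IsFractionRing.injective (B ⧸ 𝔔) (FractionRing (B ⧸ 𝔔)))] at h2
    exact Ideal.Quotient.eq_zero_iff_mem.mp h2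
  · intro h
    apply Subtype.ext
    show algebraMap (B ⧸ 𝔔) (FractionRing (B ⧸ 𝔔)) (Ideal.Quotient.mk 𝔔 b) = 0
    rw [Ideal.Quotient.eq_zero_iff_mem.mpr h, map_zero]

/-- An `𝒪`-algebra homomorphism from a local ring integral over the local ring `𝒪` to a local
`𝒪`-algebra with local structure map is local. -/
theorem isLocalHom_of_integral_h673 (𝒪 T O : Type*) [CommRing 𝒪] [IsLocalRing 𝒪] [CommRing T]
    [IsLocalRing T] [Algebra 𝒪 T] [Algebra.IsIntegral 𝒪 T] [CommRing O] [IsLocalRing O]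
    [Algebra 𝒪 O] [IsLocalHom (algebraMap 𝒪 O)] (χ : T →+* O)
    (hχ : ∀ a, χ (algebraMap 𝒪 T a) = algebraMap 𝒪 O a) : IsLocalHom χ := by
  set q : Ideal T := (maximalIdeal O).comap χ with hq
  haveI : q.IsPrime := Ideal.comap_isPrime χ _
  have hcomap : q.comap (algebraMap 𝒪 T) = maximalIdeal 𝒪 := by
    have h1 : q.comap (algebraMap 𝒪 T) = (maximalIdeal O).comap (algebraMap 𝒪 O) := by
      ext a
      simp only [hq, Ideal.mem_comap, hχ]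
    rw [h1]
    exact IsLocalRing.maximalIdeal_comap (algebraMap 𝒪 O)
  have hmax : q.IsMaximal := by
    apply Ideal.isMaximal_of_isIntegral_of_isMaximal_comap (R := 𝒪) q
    rw [hcomap]
    exact IsLocalRing.maximalIdeal.isMaximal 𝒪
  have hqm : q = maximalIdeal T := IsLocalRing.eq_maximalIdeal hmax
  exact ((IsLocalRing.local_hom_TFAE χ).out 0 4).mpr hqm

end Fermat.Agent.S59.TW.Aut.H673
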