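import Fermat.Agent.S59.TW.H81.D561.DictNeb
import Fermat.Agent.S59.TW.H54.TwistLNS

-- Vendored VERBATIM (namespace renamed) by helper673 from helper561's off-main
-- `Fermat/Agent/S38/H561/DictNew.lean` (origin/helper561), on top of helper81's vendored copies
-- `S59/TW/H81/D561/*`, so that the S59 leaf DICT-R is self-contained on main.
-- All credit for this file: helper561.

/-!
# Row HARD, cell HECKE, leaf DICT (helper561): Betti point → newform with `q² ∥ level`

Part 3 of the dictionary.  The twisted eigenvector of `exists_twisted_eigenvector` is fed to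
TW-NS (helper54, `twistL_anemic_exists_newform`):

* `mem_L_of_chiZ_ne_one`, `mem_L_of_unit` : a prime `q ∥ M` at which the nebentypus `χ` is
  nontrivial (`χ d ≠ 1` for some `d ≡ 1 mod M / q`) is one of the twisting primes of ANY twist
  datum of `χ`;
* `exists_newform_of_occurs` : if `vals` occurs integrally in the parabolic classes of `K`, and
  `vals (⟨d⟩) ≠ 1` for some `d ≡ 1 mod M / q`, `q² ∥ N'`, then there are a newform `g` of a
  level `M₁ ∣ N'` with `q² ∥ M₁` and eigenvalues `c` with `a_ℓ(g) = c (T_ℓ)` such that every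
  integral polynomial relation between the `c j` holds for the `vals j`;
* `exists_newform_ringHom_of_occurs` : the same with a ring homomorphism `L : R₀ →+* R`,
  `R₀ ⊆ ℂ` a subring containing the `a_ℓ(g)`, `L (a_ℓ g) = vals (T_ℓ)`: this is the shape of
  the hypotheses of helper107 `carriesAt_of_lam107` / `carriesAt_of_subring107`.
-/

set_option autoImplicit false
set_option linter.unusedSectionVars false
set_option linter.unusedVariables false
set_option linter.style.haveILetI false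

noncomputable section

namespace Fermat.Agent.S59.TW.Aut.H673.D561

open Fermat.Agent.S59.TW.H81.D561

open CongruenceSubgroup ModularForm ModularCurve ModularCurve.Period
open UpperHalfPlane hiding I
open Matrix.SpecialLinearGroup Fermat.Agent.Lib.Newform.H803
open Fermat.Agent.S59.TW.H653 Fermat.Agent.S59.TW.H564 Fermat.Agent.S59.TW.H658
open scoped Manifold MatrixGroups ModularForm

section Mem

variable {M N' : ℕ} {χ : DirichletCharacter ℂ M}

/-- A prime `q ∥ M` at which `χ` is nontrivial is one of the twisting primes (integer form). -/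
theorem mem_L_of_chiZ_ne_one (D : TwistDatum M N' χ) {q M' : ℕ} (hq : q.Prime)
    (hM : M = M' * q) (z : ℤ) (hz : IsCoprime z (N' : ℤ)) (hz1 : (M' : ℤ) ∣ z - 1)
    (hχ : chiZ χ z ≠ 1) : q ∈ D.L := by
  by_contra hqL
  apply hχ
  have h := D.triv z hz
  rw [chiL_apply] at h
  have hprod : (D.L.map fun q' => D.ψ q' ((z : ℤ) : ZMod q') ^ 2).prod = 1 := by
    apply List.prod_eq_one
    intro x hx
    obtain ⟨q', hq', rfl⟩ := List.mem_map.mp hx
    obtain ⟨hq'p, M'', hM'', hcop⟩ := D.prime q' hq'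
    have hne : q' ≠ q := fun h => hqL (h ▸ hq')
    have hdvd : q' ∣ M' := by
      have h1 : q' ∣ M' * q := ⟨M'', by rw [← hM, hM'', mul_comm]⟩
      rcases (Nat.Prime.dvd_mul hq'p).mp h1 with h | h
      · exact h
      · exact absurd ((Nat.prime_dvd_prime_iff_eq hq'p hq).mp h) hne
    have h1 : ((z : ℤ) : ZMod q') = 1 := by
      have h2 : (q' : ℤ) ∣ z - 1 := (Int.natCast_dvd_natCast.mpr hdvd).trans hz1
      have h3 := (ZMod.intCast_zmod_eq_zero_iff_dvd (z - 1) q').mpr h2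
      push_cast at h3
      exact sub_eq_zero.mp h3
    rw [h1, map_one, one_pow]
  rwa [hprod, mul_one] at h

/-- A prime `q ∥ M` at which `χ` is nontrivial is one of the twisting primes (unit form). -/
theorem mem_L_of_unit [NeZero M] [NeZero N'] (D : TwistDatum M N' χ) (hMN : M ∣ N') {q M' : ℕ}
    (hq : q.Prime) (hM : M = M' * q) (d : (ZMod M)ˣ)
    (hd : ZMod.unitsMap (Dvd.intro _ hM.symm : M' ∣ M) d = 1)
    (hχ : χ (d : ZMod M) ≠ 1) : q ∈ D.L := by
  obtain ⟨d', hd'⟩ := ZMod.unitsMap_surjective hMN d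
  have hM'0 : M' ≠ 0 := by
    rintro rfl
    exact NeZero.ne M (by rw [hM, zero_mul])
  haveI : NeZero M' := ⟨hM'0⟩
  have hzM : (((d' : ZMod N').val : ℤ) : ZMod M) = (d : ZMod M) := by
    rw [Int.cast_natCast, ZMod.natCast_val, ← hd', ZMod.unitsMap_def, Units.coe_map]
    rfl
  refine mem_L_of_chiZ_ne_one D hq hM ((d' : ZMod N').val : ℤ) ?_ ?_ ?_
  · exact Nat.isCoprime_iff_coprime.mpr (ZMod.val_coe_unit_coprime d')
  · rw [← ZMod.intCast_zmod_eq_zero_iff_dvd]
    push_cast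
    rw [sub_eq_zero]
    have h2 := congrArg (fun e : (ZMod M')ˣ => (e : ZMod M')) hd
    simp only [ZMod.unitsMap_def, Units.coe_map, Units.val_one] at h2
    have h3 : (((d' : ZMod N').val : ℕ) : ZMod M) = (d : ZMod M) := by
      rw [← hzM, Int.cast_natCast]
    rw [← h3] at h2
    have h4 := map_natCast (ZMod.castHom (Dvd.intro _ hM.symm : M' ∣ M) (ZMod M'))
      (d' : ZMod N').val
    exact h4.symm.trans h2
  · rw [chiZ_apply, hzM]
    exact hχ

end Mem

section Main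

variable {M : ℕ} {K : Subgroup SL(2, ℤ)} [NeZero M] [K.FiniteIndex]

/-- The eigensystem `ℓ ↦ c (T_ℓ)` as a function on `ℕ` (junk value `0`). -/
def lamOf {N' : ℕ} {S : Set ℕ} (c : OpIdx N' S M → ℂ) (ℓ : ℕ) : ℂ := by
  classical
  exact if h : ℓ.Prime ∧ ¬ ℓ ∣ N' ∧ ℓ ∉ S then c (Sum.inl ⟨ℓ, h⟩) else 0

theorem lamOf_apply {N' : ℕ} {S : Set ℕ} (c : OpIdx N' S M → ℂ) (i : GoodPrime N' S) :
    lamOf c i.1 = c (Sum.inl i) := by
  rw [lamOf, dif_pos i.2]

/-- **DICT, part 3: Betti point → newform with `q² ∥ level`.**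
`vals` occurs integrally in the parabolic classes of `K` and the diamond operator of some
`d ≡ 1 mod M / q` has `vals`-value `≠ 1`; `q² ∥ N'`.  Then there are a newform `g` of a level
`M₁ ∣ N'`, `q² ∥ M₁`, and eigenvalues `c`, `a_ℓ(g) = c (T_ℓ)`, such that every integral
polynomial relation between the `c j` holds for the `vals j`. -/
theorem exists_newform_of_occurs (hK : IsMid M K) {N' : ℕ} [NeZero N'] {u : ℕ → (ZMod M)ˣ}
    (H : TwistHyp K N' u) {S : Set ℕ}
    {R : Type*} [CommRing R] [IsDomain R] (vals : OpIdx N' S M → R)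
    (hocc : ∀ P : FreeAlgebra ℤ (OpIdx N' S M),
      (∀ y : Additive K →+ ℤ, IsParabolicHom K y →
        FreeAlgebra.lift ℤ (opB hK ℤ H.dvd u) P y = 0) →
      FreeAlgebra.lift ℤ vals P = 0)
    {q M' : ℕ} (hq : q.Prime) (hM : M = M' * q) (hv : N'.factorization q = 2)
    (d : (ZMod M)ˣ) (hd : ZMod.unitsMap (Dvd.intro _ hM.symm : M' ∣ M) d = 1)
    (hvd : vals (Sum.inr d) ≠ 1) :
    ∃ c : OpIdx N' S M → ℂ,
      (∀ P : FreeAlgebra ℤ (OpIdx N' S M),
        FreeAlgebra.lift ℤ c P = 0 → FreeAlgebra.lift ℤ vals P = 0) ∧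
      ∃ (M₁ : ℕ) (_ : NeZero M₁) (g : CuspForm (Gamma0 M₁) 2), g.IsNewform ∧ M₁ ∣ N' ∧
        M₁.factorization q = 2 ∧
        ∀ i : GoodPrime N' S, ModularFormClass.qCoeff g i.1 = c (Sum.inl i) := by
  obtain ⟨c, χ, hχK, D, F, hF0, hχc, hpsi, hne, heig, hker⟩ :=
    exists_twisted_eigenvector hK H vals hocc
  refine ⟨c, hker, ?_⟩
  -- `χ d ≠ 1`
  have hχd : χ (d : ZMod M) ≠ 1 := by
    intro h1
    apply hvd
    have h2 := hker (FreeAlgebra.ι ℤ (Sum.inr d) - 1) (by
      rw [map_sub, map_one, FreeAlgebra.lift_ι_apply, ← hχc d, h1, sub_self])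
    rw [map_sub, map_one, FreeAlgebra.lift_ι_apply] at h2
    exact sub_eq_zero.mp h2
  have hqL : q ∈ D.L := mem_L_of_unit D H.dvd hq hM d hd hχd
  obtain ⟨M₁, hM₁, g, hg, hdvd, hfac, hcoef⟩ :=
    Fermat.Agent.S59.TW.H54.twistL_anemic_exists_newform D.ψ D.L D.prime (isCharMod_chiZ χ)
      D.dvd D.triv (f := (F : ℍ → ℂ)) F.2.2 hqL (D.ψ_ne q hqL) hv (nebTwist D F)
      (coe_nebTwist D F) hne S (lamOf c)
      (fun ℓ hℓ hℓN hℓS => by
        rw [heig ⟨ℓ, hℓ, hℓN, hℓS⟩, ← lamOf_apply c ⟨ℓ, hℓ, hℓN, hℓS⟩])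
  refine ⟨M₁, hM₁, g, hg, hdvd, hfac, fun i => ?_⟩
  rw [hcoef i.1 i.2.1 i.2.2.1 i.2.2.2, lamOf_apply]

/-- **DICT, part 3, ring homomorphism form.**  Same hypotheses; the conclusion gives the newform
`g`, a subring `R₀ ⊆ ℂ` containing the `a_ℓ(g)` (`ℓ` good) and a ring homomorphism
`L : R₀ →+* R` with `L (a_ℓ g) = vals (T_ℓ)`. -/
theorem exists_newform_ringHom_of_occurs (hK : IsMid M K) {N' : ℕ} [NeZero N']
    {u : ℕ → (ZMod M)ˣ} (H : TwistHyp K N' u) {S : Set ℕ}
    {R : Type*} [CommRing R] [IsDomain R] (vals : OpIdx N' S M → R)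
    (hocc : ∀ P : FreeAlgebra ℤ (OpIdx N' S M),
      (∀ y : Additive K →+ ℤ, IsParabolicHom K y →
        FreeAlgebra.lift ℤ (opB hK ℤ H.dvd u) P y = 0) →
      FreeAlgebra.lift ℤ vals P = 0)
    {q M' : ℕ} (hq : q.Prime) (hM : M = M' * q) (hv : N'.factorization q = 2)
    (d : (ZMod M)ˣ) (hd : ZMod.unitsMap (Dvd.intro _ hM.symm : M' ∣ M) d = 1)
    (hvd : vals (Sum.inr d) ≠ 1) :
    ∃ (M₁ : ℕ) (_ : NeZero M₁) (g : CuspForm (Gamma0 M₁) 2) (_ : g.IsNewform)
      (R₀ : Subring ℂ) (hR : ∀ i : GoodPrime N' S, ModularFormClass.qCoeff g i.1 ∈ R₀)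
      (L : R₀ →+* R),
      M₁ ∣ N' ∧ M₁.factorization q = 2 ∧
      ∀ i : GoodPrime N' S, L ⟨ModularFormClass.qCoeff g i.1, hR i⟩ = vals (Sum.inl i) := by
  obtain ⟨c, hker, M₁, hM₁, g, hg, hdvd, hfac, hcoef⟩ :=
    exists_newform_of_occurs hK H vals hocc hq hM hv d hd hvd
  obtain ⟨L, hL⟩ := exists_ringHom_of_ker_le c vals hker
  have hR : ∀ i : GoodPrime N' S,
      ModularFormClass.qCoeff g i.1 ∈ ((FreeAlgebra.lift ℤ c).range.toSubring) := fun i =>
    ⟨FreeAlgebra.ι ℤ (Sum.inl i), by rw [hcoef i]; exact FreeAlgebra.lift_ι_apply _ _⟩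
  refine ⟨M₁, hM₁, g, hg, (FreeAlgebra.lift ℤ c).range.toSubring, hR, L, hdvd, hfac, fun i => ?_⟩
  have h1 := hL (FreeAlgebra.ι ℤ (Sum.inl i))
  have h2 : FreeAlgebra.lift ℤ vals (FreeAlgebra.ι ℤ (Sum.inl i)) = vals (Sum.inl i) :=
    FreeAlgebra.lift_ι_apply _ _
  rw [← h2, ← h1]
  congr 1
  apply Subtype.ext
  show ModularFormClass.qCoeff g i.1 = FreeAlgebra.lift ℤ c (FreeAlgebra.ι ℤ (Sum.inl i))
  rw [hcoef i, FreeAlgebra.lift_ι_apply]

end Main

end Fermat.Agent.S59.TW.Aut.H673.D561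

end
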