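import Fermat.Agent.S59.TW.H658.ModQRing
import Fermat.Agent.S59.TW.Aut.SkelLemmas

/-!
# S59 / cell TW, AUT leaf CMP, DICT-R — auxiliary lemmas  (helper673)

* `exists_unit_crt_h673` : Chinese remainder theorem for units, `M = M' · q`, `(M', q) = 1`:
  a unit `d` modulo `M` with `d ≡ 1 mod M'` and prescribed class modulo `q`;
* `exists_unit_red_h673` : a unit `d` modulo `M_Q` with `d ≡ 1 mod M_Q / q_j` and
  `red d = Pi.mulSingle j u`;
* `factorization_wilesLevel_union_h673` : `q_j² ∥ N_{Smin ∪ Q}`;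
* `ringHom_lift_h673` : a ring homomorphism commutes with `FreeAlgebra.lift ℤ`.
-/

set_option autoImplicit false
set_option linter.style.haveILetI false
set_option linter.unusedSectionVars false

open CongruenceSubgroup
open scoped MatrixGroups

namespace Fermat.Agent.S59.TW.Aut.H673

open Fermat.Agent.S59.Arch Fermat.Agent.S59.TW.H959 Fermat.Agent.S59.TW.H653
open Fermat.Agent.S59.TW.Aut Fermat.Agent.S59.TW.H658

/-- A ring homomorphism commutes with the evaluation of integral noncommutative polynomials. -/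
theorem ringHom_lift_h673 {X : Type*} {B C : Type*} [Ring B] [Ring C] (f : B →+* C)
    (β : X → B) (P : FreeAlgebra ℤ X) :
    f (FreeAlgebra.lift ℤ β P) = FreeAlgebra.lift ℤ (fun x => f (β x)) P := by
  have h : f.toIntAlgHom.comp (FreeAlgebra.lift ℤ β) = FreeAlgebra.lift ℤ (fun x => f (β x)) := by
    apply FreeAlgebra.hom_ext
    funext x
    simp
  rw [← h]
  rfl

/-- **CRT for units.** -/
theorem exists_unit_crt_h673 {M M' q : ℕ} (hq : q.Prime) (hM : M = M' * q)
    (hcop : Nat.Coprime M' q) (u : (ZMod q)ˣ) :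
    ∃ d : (ZMod M)ˣ, ZMod.unitsMap (Dvd.intro _ hM.symm : M' ∣ M) d = 1 ∧
      ZMod.unitsMap (Dvd.intro_left _ hM.symm : q ∣ M) d = u := by
  subst hM
  haveI : NeZero q := ⟨hq.ne_zero⟩
  obtain ⟨k, hk1, hk2⟩ := Nat.chineseRemainder hcop 1 (u : ZMod q).val
  have hc1 : Nat.Coprime k M' := by
    have := hk1.gcd_eq
    rw [Nat.coprime_iff_gcd_eq_one, this]
    exact Nat.gcd_one_left _
  have hc2 : Nat.Coprime k q := by
    have := hk2.gcd_eq
    rw [Nat.coprime_iff_gcd_eq_one, this]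
    exact ZMod.val_coe_unit_coprime u
  have hc : Nat.Coprime k (M' * q) := Nat.Coprime.mul_right hc1 hc2
  refine ⟨ZMod.unitOfCoprime k hc, ?_, ?_⟩
  · apply Units.ext
    rw [ZMod.unitsMap_def, Units.coe_map, ZMod.coe_unitOfCoprime, Units.val_one,
      MonoidHom.coe_coe, map_natCast]
    have := (ZMod.natCast_eq_natCast_iff k 1 M').mpr hk1
    rw [this, Nat.cast_one]
  · apply Units.ext
    rw [ZMod.unitsMap_def, Units.coe_map, ZMod.coe_unitOfCoprime, MonoidHom.coe_coe,
      map_natCast]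
    have := (ZMod.natCast_eq_natCast_iff k (u : ZMod q).val q).mpr hk2
    rw [this]
    exact ZMod.natCast_zmod_val _

section Level

variable (p : ℕ) [Fact p.Prime] (t : PType) (Smin : Finset ℕ) {r : ℕ} (qv : Fin r → ℕ)

/-- A unit `d` modulo `M_Q`, `≡ 1` modulo `M_Q / q_j`, with `red d = Pi.mulSingle j u`. -/
theorem exists_unit_red_h673 (hpS : p ∈ Smin) (hSp : ∀ q ∈ Smin, q.Prime)
    (hqi : Function.Injective qv) (hq : ∀ i, (qv i).Prime ∧ qv i ∉ Smin) (j : Fin r)
    (u : (ZMod (qv j))ˣ) :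
    ∃ (M' : ℕ) (hM : bLevel (wilesLevel p t Smin Smin) qv = M' * qv j)
      (d : (ZMod (bLevel (wilesLevel p t Smin Smin) qv))ˣ),
      ZMod.unitsMap (Dvd.intro _ hM.symm : M' ∣ bLevel (wilesLevel p t Smin Smin) qv) d = 1 ∧
      red (wilesLevel p t Smin Smin) qv d = Pi.mulSingle j u := by
  classical
  obtain ⟨M', hM, hcop⟩ := exists_bLevel_eq p t Smin qv hpS hSp hqi hq j
  obtain ⟨d, hd1, hd2⟩ := exists_unit_crt_h673 (hq j).1 hM hcop u
  refine ⟨M', hM, d, hd1, ?_⟩
  funext i
  by_cases hij : i = j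
  · subst hij
    rw [Pi.mulSingle_eq_same, red_apply]
    exact hd2
  · rw [Pi.mulSingle_eq_of_ne hij, red_apply]
    have hdvd : qv i ∣ M' := by
      have h1 : qv i ∣ M' * qv j := hM ▸ dvd_bLevel _ qv i
      have h2 : Nat.Coprime (qv i) (qv j) :=
        (Nat.coprime_primes (hq i).1 (hq j).1).mpr fun h => hij (hqi h)
      exact h2.dvd_of_dvd_mul_right h1
    have h3 : ZMod.unitsMap (dvd_bLevel (wilesLevel p t Smin Smin) qv i) d =
        ZMod.unitsMap hdvd (ZMod.unitsMap
          (Dvd.intro _ hM.symm : M' ∣ bLevel (wilesLevel p t Smin Smin) qv) d) := by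
      rw [← MonoidHom.comp_apply, ZMod.unitsMap_comp]
    rw [h3, hd1, map_one]

/-- `q_j² ∥ N_{Smin ∪ Q}`. -/
theorem factorization_wilesLevel_union_h673 (hpS : p ∈ Smin) (hSp : ∀ q ∈ Smin, q.Prime)
    (hqi : Function.Injective qv) (hq : ∀ i, (qv i).Prime ∧ qv i ∉ Smin) (j : Fin r)
    (hN₀ : wilesLevel p t Smin Smin ≠ 0) :
    (wilesLevel p t Smin (Smin ∪ Finset.univ.image qv)).factorization (qv j) = 2 := by
  classical
  rw [wilesLevel_union p t Smin qv hqi (fun i => (hq i).2)]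
  have hprod : (∏ i, qv i ^ 2) ≠ 0 :=
    Finset.prod_ne_zero_iff.mpr fun i _ => pow_ne_zero _ (hq i).1.ne_zero
  rw [Nat.factorization_mul hN₀ hprod, Finsupp.add_apply]
  have h1 : (wilesLevel p t Smin Smin).factorization (qv j) = 0 :=
    Nat.factorization_eq_zero_of_not_dvd fun h =>
      (hq j).2 (mem_of_dvd_wilesLevel p t Smin hpS hSp (hq j).1 h)
  rw [h1, zero_add, Nat.factorization_prod (fun i _ => pow_ne_zero _ (hq i).1.ne_zero),
    Finsupp.finsetSum_apply]
  rw [Finset.sum_eq_single j]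
  · rw [Nat.factorization_pow, Finsupp.smul_apply, (hq j).1.factorization_self, smul_eq_mul]
  · intro i _ hij
    rw [Nat.factorization_pow, Finsupp.smul_apply, (hq i).1.factorization,
      Finsupp.single_eq_of_ne (fun h => hij (hqi h.symm)), smul_zero]
  · intro h
    exact absurd (Finset.mem_univ j) h

end Level

end Fermat.Agent.S59.TW.Aut.H673
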