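import Fermat.Agent.S59.TW.Aut.H673.FrontAbs
import Fermat.Agent.S59.TW.Aut.Skel

/-!
# S59 / cell TW, AUT leaf CMP, part (R), FRONT — in the vocabulary of `Aut/Spec`  (helper673)

`front` : `V ⊆ X_{K_Q}(𝒪)` with `IsQPart PQ α V`, `a : T_Q → End_𝒪 V` with `IsQAction PQ V h a`,
`y ≠ 0` in `V` with PRIME annihilator in `T_Q`, killed by `∑_{k<n} ⟨u⟩_j^k` (`n = p` in (Rpt)).

Then there are a complete discrete valuation ring `𝒪'` (characteristic zero, finite residue
field, local and injective over `𝒪`), a LOCAL `𝒪`-algebra homomorphism `x : T_Q → 𝒪'` with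
`x s = 0 ↔ a s y = 0` (hence `x w = 1 ↔ a w y = y`) and a character `χ : ∏ (ℤ/q_j)ˣ → 𝒪'` with
`∑_{k<n} χ(u_j)^k = 0`, such that every `𝒪`-linear relation `∑ c_i a(s_i) ⟨g_i⟩ = 0` on `V`
holds for `(x, χ)`.  This is the "Betti point" consumed by the dictionary (DICT) of (Rpt).
-/

set_option autoImplicit false
set_option linter.style.haveILetI false
set_option linter.unusedSectionVars false

open Polynomial IsLocalRing CongruenceSubgroup
open scoped MatrixGroups

namespace Fermat.Agent.S59.TW.Aut.H673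

open Fermat.Agent.S59.Arch Fermat.Agent.S59.TW.H959 Fermat.Agent.S59.TW.H653
open Fermat.Agent.S59.TW.Aut

section

variable {p : ℕ} [hpF : Fact p.Prime]
  {𝒪 : Type} [CommRing 𝒪] [IsDomain 𝒪] [IsDiscreteValuationRing 𝒪]
  [IsAdicComplete (maximalIdeal 𝒪) 𝒪] [Finite (ResidueField 𝒪)] [CharZero 𝒪]
  {ρbar : ResidualGaloisRep (ResidueField 𝒪)} {t : PType} {Smin : Finset ℕ}
  [NeZero (wilesLevel p t Smin Smin)]
  {r : ℕ} {qv : Fin r → ℕ}
  [NeZero (wilesLevel p t Smin (Smin ∪ Finset.univ.image qv))]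
  (PQ : HeckePkg p 𝒪 ρbar t Smin (Smin ∪ Finset.univ.image qv)) (α : Fin r → 𝒪)
  (V : Submodule 𝒪 (XQ p t Smin qv 𝒪)) (h : ℕ) (a : PQ.T →ₐ[𝒪] Module.End 𝒪 V)

/-- `V ⊆ Hom(K_Q, 𝒪)` is torsion-free over the domain `𝒪`. -/
theorem torsionFree_h673 (c : 𝒪) (v : V) (hcv : c • v = 0) : c = 0 ∨ v = 0 := by
  by_cases hc : c = 0
  · exact Or.inl hc
  · right
    apply Subtype.ext
    refine AddMonoidHom.ext fun k => ?_
    have h1 : ((c • v : V) : XQ p t Smin qv 𝒪) k = 0 := by rw [hcv]; rfl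
    have h2 : c * (v : XQ p t Smin qv 𝒪) k = 0 := h1
    rcases mul_eq_zero.mp h2 with h3 | h3
    · exact absurd h3 hc
    · exact h3

/-- The diamond operators of `∏ (ℤ/q_j)ˣ` on `V`, as a monoid homomorphism. -/
noncomputable def diaHom (hinj : Function.Injective qv) (hprime : ∀ j, (qv j).Prime)
    (hV : IsQPart PQ α V) : (∀ j : Fin r, (ZMod (qv j))ˣ) →* Module.End 𝒪 V where
  toFun u := diaV hV u
  map_one' := by
    haveI hM : NeZero (bLevel (wilesLevel p t Smin Smin) qv) :=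
      ⟨Nat.mul_ne_zero (NeZero.ne _)
        (Finset.prod_ne_zero_iff.mpr fun j _ => (hprime j).ne_zero)⟩
    refine LinearMap.ext fun v => Subtype.ext ?_
    rw [coe_diaV]
    exact diaQ_one p t Smin qv 𝒪 _
  map_mul' u u' := by
    haveI hM : NeZero (bLevel (wilesLevel p t Smin Smin) qv) :=
      ⟨Nat.mul_ne_zero (NeZero.ne _)
        (Finset.prod_ne_zero_iff.mpr fun j _ => (hprime j).ne_zero)⟩
    have hred := red_surjective (wilesLevel p t Smin Smin) qv (NeZero.ne _) hinj hprime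
    refine LinearMap.ext fun v => Subtype.ext ?_
    rw [coe_diaV, Module.End.mul_apply, coe_diaV, coe_diaV]
    exact diaQ_mul p t Smin qv 𝒪 hred u u' _

@[simp] theorem diaHom_apply (hinj : Function.Injective qv) (hprime : ∀ j, (qv j).Prime)
    (hV : IsQPart PQ α V) (u : ∀ j : Fin r, (ZMod (qv j))ˣ) :
    diaHom PQ α V hinj hprime hV u = diaV hV u := rfl

include hpF in
/-- **(R), FRONT.**  The Betti point of an eigenvector with prime annihilator. -/
theorem front (hS : ∀ q ∈ Smin, q.Prime) (hpS : p ∈ Smin)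
    (hinj : Function.Injective qv) (hprime : ∀ j, (qv j).Prime)
    (hV : IsQPart PQ α V) (ha : IsQAction PQ V h a)
    (j : Fin r) (u : (ZMod (qv j))ˣ) (n : ℕ)
    (y : V) (hy : y ≠ 0)
    (hΦ : (∑ k ∈ Finset.range n, diaV hV (Pi.mulSingle j u) ^ k) y = 0)
    (hann : ∀ s t : PQ.T, a (s * t) y = 0 → a s y = 0 ∨ a t y = 0) :
    ∃ (𝒪' : Type) (_ : CommRing 𝒪') (_ : IsDomain 𝒪') (_ : IsDiscreteValuationRing 𝒪')
      (_ : IsAdicComplete (maximalIdeal 𝒪') 𝒪') (_ : Finite (ResidueField 𝒪')) (_ : CharZero 𝒪')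
      (_ : Algebra 𝒪 𝒪') (x : PQ.T →ₐ[𝒪] 𝒪') (χ : (∀ j : Fin r, (ZMod (qv j))ˣ) →* 𝒪'),
      IsLocalHom (algebraMap 𝒪 𝒪') ∧ Function.Injective (algebraMap 𝒪 𝒪') ∧
      IsLocalHom x.toRingHom ∧
      (∀ s, x s = 0 ↔ a s y = 0) ∧ (∀ w, x w = 1 ↔ a w y = y) ∧
      (∑ k ∈ Finset.range n, χ (Pi.mulSingle j u) ^ k = 0) ∧
      ∀ (ι : Type) (F : Finset ι) (c : ι → 𝒪) (s : ι → PQ.T)
        (g : ι → ∀ j : Fin r, (ZMod (qv j))ˣ),
        (∀ v : V, ∑ i ∈ F, c i • a (s i) (diaV hV (g i) v) = 0) →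
          ∑ i ∈ F, algebraMap 𝒪 𝒪' (c i) * x (s i) * χ (g i) = 0 := by
  classical
  have hcomm : ∀ (s : PQ.T) (g : ∀ j : Fin r, (ZMod (qv j))ˣ),
      Commute (a s) (diaHom PQ α V hinj hprime hV g) := by
    intro s g
    refine LinearMap.ext fun v => ?_
    rw [Module.End.mul_apply, Module.End.mul_apply, diaHom_apply]
    exact (diaV_comm PQ α V h a hS hpS hprime hV ha g s v).symm
  obtain ⟨𝒪', i1, i2, i3, i4, i5, i6, i7, x, χ, hloc, hinj', hx, hker, hχ, hrel⟩ :=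
    front_abs 𝒪 PQ.T (∀ j : Fin r, (ZMod (qv j))ˣ) V (torsionFree_h673 V) a
      (diaHom PQ α V hinj hprime hV) hcomm y hy hann (Pi.mulSingle j u) n hΦ
  refine ⟨𝒪', i1, i2, i3, i4, i5, i6, i7, x, χ, hloc, hinj', hx, hker, fun w => ?_, hχ, ?_⟩
  · have h1 := hker (w - 1)
    have h2 : x w = x (w - 1) + 1 := by
      rw [← map_one x, ← map_add, sub_add_cancel]
    have h3 : a w y = a (w - 1) y + y := by
      have h4 : a w = a (w - 1) + a 1 := by rw [← map_add, sub_add_cancel]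
      rw [h4, map_one, LinearMap.add_apply, Module.End.one_apply]
    rw [h2, h3]
    constructor
    · intro h5
      have h6 : x (w - 1) = 0 := add_eq_right.mp h5
      rw [h1.mp h6, zero_add]
    · intro h5
      have h6 : a (w - 1) y = 0 := add_eq_right.mp h5
      rw [h1.mpr h6, zero_add]
  · intro ι F c s g hv
    apply hrel ι F c s g
    refine LinearMap.ext fun v => ?_
    rw [LinearMap.sum_apply, LinearMap.zero_apply, ← hv v]
    refine Finset.sum_congr rfl fun i _ => ?_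
    rw [LinearMap.smul_apply, Module.End.mul_apply, diaHom_apply]

end

end Fermat.Agent.S59.TW.Aut.H673
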