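import Fermat.Agent.S59.TW.Aut.H673.FrontEv
import Fermat.Agent.S59.TW.Aut.H673.Front
import Fermat.Agent.S59.TW.Aut.H673.DictRAux
import Fermat.Agent.S59.TW.H314.CmpSpec
import Fermat.Agent.S59.TW.H347.TwistHyp
import Fermat.Agent.S59.TW.H564.ParPkg
import Fermat.Agent.S58.H94.EigChar
import Fermat.Agent.S59.TW.Aut.H673.D561New

/-!
# S59 / cell TW, AUT leaf CMP, layer 4 leaf DICT-R  (helper673)

`dictR : H314.DictRStatement` (VERBATIM, `TW/H314/CmpSpec.lean`): an eigenvector `y` of `T_Q` in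
`V ⊆ X_{K_Q}(𝒪)` killed by `1 + ⟨u⟩_j + … + ⟨u⟩_j^(p-1)` is a newform point of a level `M` with
`q_j² ∥ M`.

Assembly of
* FRONT (`front_abs_ev`, helper673): the Betti point `ev : T_Q ⊗ 𝒪[∏ (ℤ/q_j)ˣ] → 𝒪'` of `y`,
  `𝒪'` a complete discrete valuation ring, killing every element acting by zero on `V`;
* PAR (`H564.isParabolic_of_pkg`): `V` consists of parabolic classes;
* the change of coefficients `ℤ → 𝒪` (`H658.hom_induction_of_torsionFree`);
* the concrete twist hypothesis at `K_Q` (`H347.twistHyp_KQ_h347`);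
* DICT (`D561.exists_newform_ringHom_of_occurs`, helper561; vendored in `D561New.lean` and
  `S59/TW/H81/D561`): Betti point → newform `g`,
  `q_j² ∥` level, with a ring homomorphism `L (a_ℓ g) = x (T_ℓ)` [Eichler–Shimura for `K_Q`,
  nebentypus decomposition, twist, TW-NS of helper54];
* the eigen-character of `g` (`S58.H94.chigOf`).
-/

set_option autoImplicit false
set_option linter.style.haveILetI false
set_option linter.unusedSectionVars false
set_option linter.unusedVariables false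
set_option maxSynthPendingDepth 3

open Polynomial IsLocalRing CongruenceSubgroup
open scoped MatrixGroups TensorProduct

namespace Fermat.Agent.S59.TW.Aut.H673

open Fermat.Agent.S59.Arch Fermat.Agent.S59.TW.H959 Fermat.Agent.S59.TW.H653
open Fermat.Agent.S59.TW.Aut Fermat.Agent.S59.TW.H658 Fermat.Agent.S59.TW.H314
open Fermat.Agent.S59.TW.H81.D561 Fermat.Agent.S59.TW.Aut.H673.D561 ModularCurve.Period

section

variable {p : ℕ} [hpF : Fact p.Prime]
  {𝒪 : Type} [CommRing 𝒪] [IsDomain 𝒪] [IsDiscreteValuationRing 𝒪]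
  [IsAdicComplete (maximalIdeal 𝒪) 𝒪] [Finite (ResidueField 𝒪)] [CharZero 𝒪]
  {ρbar : ResidualGaloisRep (ResidueField 𝒪)} {t : PType} {Smin : Finset ℕ}
  [NeZero (wilesLevel p t Smin Smin)]
  {r : ℕ} {qv : Fin r → ℕ}
  [NeZero (wilesLevel p t Smin (Smin ∪ Finset.univ.image qv))]
  (PQ : HeckePkg p 𝒪 ρbar t Smin (Smin ∪ Finset.univ.image qv)) (α : Fin r → 𝒪)
  (V : Submodule 𝒪 (XQ p t Smin qv 𝒪)) (h : ℕ) (a : PQ.T →ₐ[𝒪] Module.End 𝒪 V)

/-- The operators on `V`: `a (T_ℓ)` and the diamond operators. -/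
noncomputable def opV (hinj : Function.Injective qv) (hprime : ∀ j, (qv j).Prime)
    (hV : IsQPart PQ α V) :
    OpIdx (wilesLevel p t Smin (Smin ∪ Finset.univ.image qv))
      (↑(Smin ∪ Finset.univ.image qv) : Set ℕ) (bLevel (wilesLevel p t Smin Smin) qv) →
      Module.End 𝒪 V
  | Sum.inl i => a (PQ.H.π (CuspForm.heckeAlgebra.T i.2.1 i.2.2.1 i.2.2.2))
  | Sum.inr d => diaHom PQ α V hinj hprime hV (red (wilesLevel p t Smin Smin) qv d)

/-- The operators in `T_Q ⊗ 𝒪[∏ (ℤ/q_j)ˣ]`. -/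
noncomputable def opT :
    OpIdx (wilesLevel p t Smin (Smin ∪ Finset.univ.image qv))
      (↑(Smin ∪ Finset.univ.image qv) : Set ℕ) (bLevel (wilesLevel p t Smin Smin) qv) →
      PQ.T ⊗[𝒪] MonoidAlgebra 𝒪 (∀ j : Fin r, (ZMod (qv j))ˣ)
  | Sum.inl i => (PQ.H.π (CuspForm.heckeAlgebra.T i.2.1 i.2.2.1 i.2.2.2)) ⊗ₜ[𝒪] 1
  | Sum.inr d => (1 : PQ.T) ⊗ₜ[𝒪]
      MonoidAlgebra.of 𝒪 (∀ j : Fin r, (ZMod (qv j))ˣ) (red (wilesLevel p t Smin Smin) qv d)

/-- The sum of the iterates of the diamond operator, on `V` and on `X_{K_Q}(𝒪)`. -/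
theorem coe_sum_pow_diaHom (hinj : Function.Injective qv) (hprime : ∀ j, (qv j).Prime)
    (hV : IsQPart PQ α V) (g : ∀ j : Fin r, (ZMod (qv j))ˣ) (n : ℕ) (y : V) :
    (((∑ k ∈ Finset.range n, diaHom PQ α V hinj hprime hV g ^ k) y : V) :
        XQ p t Smin qv 𝒪) =
      ∑ k ∈ Finset.range n, (diaQ p t Smin qv 𝒪 g)^[k] (y : XQ p t Smin qv 𝒪) := by
  rw [LinearMap.sum_apply, AddSubmonoidClass.coe_finsetSum]
  refine Finset.sum_congr rfl fun k _ => ?_
  rw [Module.End.pow_apply]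
  have hsc : Function.Semiconj (fun v : V => (v : XQ p t Smin qv 𝒪))
      (diaHom PQ α V hinj hprime hV g) (diaQ p t Smin qv 𝒪 g) := fun v => rfl
  exact (hsc.iterate_right k).eq y

include hpF in
/-- The operators on `V` are the restrictions of the operators `opB` on `X_{K_Q}(𝒪)`. -/
theorem coe_opV (hinj : Function.Injective qv) (hprime : ∀ j, (qv j).Prime)
    [NeZero (bLevel (wilesLevel p t Smin Smin) qv)]
    (hV : IsQPart PQ α V) (ha : IsQAction PQ V h a)
    (hMN : bLevel (wilesLevel p t Smin Smin) qv ∣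
      wilesLevel p t Smin (Smin ∪ Finset.univ.image qv))
    (j : OpIdx (wilesLevel p t Smin (Smin ∪ Finset.univ.image qv))
      (↑(Smin ∪ Finset.univ.image qv) : Set ℕ) (bLevel (wilesLevel p t Smin Smin) qv))
    (v : V) :
    ((opV PQ α V a hinj hprime hV j v : V) : XQ p t Smin qv 𝒪) =
      opB (isMid_KQ p (wilesLevel p t Smin Smin) qv) 𝒪 hMN
        (fun ℓ => uOf (bLevel (wilesLevel p t Smin Smin) qv) ℓ ^ h) j
        (v : XQ p t Smin qv 𝒪) := by
  rcases j with i | d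
  · exact ha i.1 i.2.1 i.2.2.1 i.2.2.2 v
  · show diaQ p t Smin qv 𝒪 (red (wilesLevel p t Smin Smin) qv d) (v : XQ p t Smin qv 𝒪) =
      diamondU (isMid_KQ p (wilesLevel p t Smin Smin) qv) d (v : XQ p t Smin qv 𝒪)
    unfold diaQ
    exact diamondU_eq_of_chi p (wilesLevel p t Smin Smin) qv
      (chi_eq_of_red p (wilesLevel p t Smin Smin) qv
        (red_liftU (wilesLevel p t Smin Smin) qv ⟨d, rfl⟩)) _

end

/-- **DICT-R.** -/
theorem dictR : DictRStatement := by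
  intro p _ 𝒪 _ _ _ _ _ _ ρbar Smin hRH t _ht _ n r qv hq _ PQ α _hα V h a hV hh ha j u hu y hy hΦ
  classical
  have hp : p.Prime := Fact.out
  obtain ⟨hqi, hq', -⟩ := hq
  have hq2 : ∀ i, (qv i).Prime ∧ qv i ∉ Smin := fun i => ⟨(hq' i).1, (hq' i).2.1⟩
  have hprime : ∀ i, (qv i).Prime := fun i => (hq' i).1
  have hNS : ∀ q : ℕ, q.Prime →
      q ∣ wilesLevel p t Smin (Smin ∪ Finset.univ.image qv) →
      q ∈ ((Smin ∪ Finset.univ.image qv : Finset ℕ) : Set ℕ) := fun q hqp hqd =>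
    mem_of_dvd_wilesLevel_union p t Smin qv hRH.hpSmin hRH.hSmin hqi hq2 hqp hqd
  haveI : NeZero (bLevel (wilesLevel p t Smin Smin) qv) :=
    ⟨bLevel_ne_zero p t Smin qv hRH.hSmin hprime⟩
  have hMN : bLevel (wilesLevel p t Smin Smin) qv ∣
      wilesLevel p t Smin (Smin ∪ Finset.univ.image qv) :=
    (Dvd.intro _ rfl).trans (bLevel_mul_prod_dvd p t Smin qv hqi fun i => (hq2 i).2)
  have hpSig : p ∈ Smin ∪ Finset.univ.image qv := Finset.mem_union_left _ hRH.hpSmin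
  haveI : (KQ p (wilesLevel p t Smin Smin) qv).FiniteIndex :=
    Fermat.Agent.S59.TW.H564.finiteIndex_of_Gamma1_le (isMid_KQ p (wilesLevel p t Smin Smin) qv).ge
  haveI := fg_of_finiteIndex (KQ p (wilesLevel p t Smin Smin) qv)
  -- PAR
  have hpar : ∀ v ∈ V, IsParabolicHom (KQ p (wilesLevel p t Smin Smin) qv) v :=
    Fermat.Agent.S59.TW.H564.isParabolic_of_pkg hRH hpSig PQ
      (fun q hqp hqd => Finset.mem_coe.mp (hNS q hqp hqd))
      (isMid_KQ p (wilesLevel p t Smin Smin) qv) hMN hV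
  -- the twist hypothesis
  have H := Fermat.Agent.S59.TW.H347.twistHyp_KQ_h347 p t Smin qv hRH.hpSmin hRH.hSmin hqi hq2 hh
  -- FRONT
  have hcomm : ∀ (s : PQ.T) (g : ∀ j : Fin r, (ZMod (qv j))ˣ),
      Commute (a s) (diaHom PQ α V hqi hprime hV g) := by
    intro s g
    refine LinearMap.ext fun v => ?_
    rw [Module.End.mul_apply, Module.End.mul_apply, diaHom_apply]
    exact (diaV_comm PQ α V h a hRH.hSmin hRH.hpSmin hprime hV ha g s v).symm
  have hΦ' : (∑ k ∈ Finset.range p, diaHom PQ α V hqi hprime hV (Pi.mulSingle j u) ^ k) y = 0 := by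
    apply Subtype.ext
    rw [coe_sum_pow_diaHom, hΦ]
    rfl
  obtain ⟨𝒪', i1, i2, i3, i4, i5, i6, i7, ev, hloc, hinj', hx, hker, hχ, hrel⟩ :=
    front_abs_ev 𝒪 PQ.T (∀ j : Fin r, (ZMod (qv j))ˣ) V (torsionFree_h673 V) a
      (diaHom PQ α V hqi hprime hV) hcomm y hy.1 hy.2 (Pi.mulSingle j u) p hΦ'
  -- the system of values
  set vals : OpIdx (wilesLevel p t Smin (Smin ∪ Finset.univ.image qv))
      (↑(Smin ∪ Finset.univ.image qv) : Set ℕ) (bLevel (wilesLevel p t Smin Smin) qv) → 𝒪' :=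
    fun i => ev (opT PQ i) with hvals
  -- it occurs in the parabolic classes
  have hocc : ∀ P : FreeAlgebra ℤ (OpIdx (wilesLevel p t Smin (Smin ∪ Finset.univ.image qv))
      (↑(Smin ∪ Finset.univ.image qv) : Set ℕ) (bLevel (wilesLevel p t Smin Smin) qv)),
      (∀ y : Additive (KQ p (wilesLevel p t Smin Smin) qv) →+ ℤ,
        IsParabolicHom (KQ p (wilesLevel p t Smin Smin) qv) y →
        FreeAlgebra.lift ℤ (opB (isMid_KQ p (wilesLevel p t Smin Smin) qv) ℤ H.dvd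
          (fun ℓ => uOf (bLevel (wilesLevel p t Smin Smin) qv) ℓ ^ h)) P y = 0) →
      FreeAlgebra.lift ℤ vals P = 0 := by
    intro P hP
    -- coefficients `𝒪`
    have h𝒪 : ∀ y : Additive (KQ p (wilesLevel p t Smin Smin) qv) →+ 𝒪,
        IsParabolicHom (KQ p (wilesLevel p t Smin Smin) qv) y →
        FreeAlgebra.lift ℤ (opB (isMid_KQ p (wilesLevel p t Smin Smin) qv) 𝒪 H.dvd
          (fun ℓ => uOf (bLevel (wilesLevel p t Smin Smin) qv) ℓ ^ h)) P y = 0 := by
      intro y hy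
      refine hom_induction_of_torsionFree (parSet (KQ p (wilesLevel p t Smin Smin) qv))
        (fun y => FreeAlgebra.lift ℤ (opB (isMid_KQ p (wilesLevel p t Smin Smin) qv) 𝒪 H.dvd
          (fun ℓ => uOf (bLevel (wilesLevel p t Smin Smin) qv) ℓ ^ h)) P y = 0)
        ?_ (map_zero _) ?_ y hy
      · intro φ ψ hφ hψ
        rw [map_add, hφ, hψ, add_zero]
      · intro ψ c hψ
        have h1 := lift_intertwine
          (opB (isMid_KQ p (wilesLevel p t Smin Smin) qv) ℤ H.dvd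
            (fun ℓ => uOf (bLevel (wilesLevel p t Smin Smin) qv) ℓ ^ h))
          (opB (isMid_KQ p (wilesLevel p t Smin Smin) qv) 𝒪 H.dvd
            (fun ℓ => uOf (bLevel (wilesLevel p t Smin Smin) qv) ℓ ^ h))
          (compAdd _ (zmultiplesHom 𝒪 c))
          (fun i m => (opB_comp (isMid_KQ p (wilesLevel p t Smin Smin) qv) H.dvd _ i
            (zmultiplesHom 𝒪 c) m).symm) P ψ
        simp only [compAdd_apply] at h1
        rw [← h1, hP ψ hψ]
        exact AddMonoidHom.comp_zero _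
    -- the operator on `V`
    have hV0 : FreeAlgebra.lift ℤ (opV PQ α V a hqi hprime hV) P = 0 := by
      refine LinearMap.ext fun v => Subtype.ext ?_
      have h1 := lift_intertwine
        (fun i => endToInt 𝒪 V (opV PQ α V a hqi hprime hV i))
        (opB (isMid_KQ p (wilesLevel p t Smin Smin) qv) 𝒪 H.dvd
          (fun ℓ => uOf (bLevel (wilesLevel p t Smin Smin) qv) ℓ ^ h))
        V.subtype.toAddMonoidHom
        (fun i m => coe_opV PQ α V h a hqi hprime hV ha H.dvd i m) P v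
      rw [lift_endToInt] at h1
      exact h1.trans (h𝒪 _ (hpar _ v.2))
    -- transfer to the point
    have h2 : thetaH673 a (diaHom PQ α V hqi hprime hV) hcomm
        (FreeAlgebra.lift ℤ (opT PQ) P) = 0 := by
      have h3 := ringHom_lift_h673 (thetaH673 a (diaHom PQ α V hqi hprime hV) hcomm).toRingHom
        (opT PQ) P
      have h4 : (fun i => (thetaH673 a (diaHom PQ α V hqi hprime hV) hcomm).toRingHom
          (opT PQ i)) = opV PQ α V a hqi hprime hV := by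
        funext i
        rcases i with i | d
        · show thetaH673 a (diaHom PQ α V hqi hprime hV) hcomm (_ ⊗ₜ[𝒪] 1) = _
          rw [← Algebra.TensorProduct.includeLeft_apply (R := 𝒪) (S := 𝒪), thetaH673_left]
          rfl
        · show thetaH673 a (diaHom PQ α V hqi hprime hV) hcomm (1 ⊗ₜ[𝒪] _) = _
          rw [thetaH673_right]
          rfl
      rw [h4, hV0] at h3
      exact h3
    have h5 : ev (FreeAlgebra.lift ℤ (opT PQ) P) = FreeAlgebra.lift ℤ vals P :=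
      ringHom_lift_h673 ev.toRingHom (opT PQ) P
    exact h5.symm.trans (hrel _ h2)
  -- the unit `d`
  obtain ⟨M', hM, d, hd1, hd2⟩ :=
    exists_unit_red_h673 p t Smin qv hRH.hpSmin hRH.hSmin hqi hq2 j u
  have hvd : vals (Sum.inr d) ≠ 1 := by
    intro h1
    have h2 : ev ((1 : PQ.T) ⊗ₜ[𝒪]
        MonoidAlgebra.of 𝒪 (∀ j : Fin r, (ZMod (qv j))ˣ) (Pi.mulSingle j u)) = 1 := by
      rw [← hd2]
      exact h1
    rw [h2] at hχ
    simp only [one_pow, Finset.sum_const, Finset.card_range, nsmul_eq_mul, mul_one] at hχ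
    exact hp.ne_zero (Nat.cast_eq_zero.mp hχ)
  have hv := factorization_wilesLevel_union_h673 p t Smin qv hRH.hpSmin hRH.hSmin hqi hq2 j
    (NeZero.ne _)
  -- DICT
  obtain ⟨M₁, hM₁, g, hg, R₀, hR, L, hdvd, hfac, hL⟩ :=
    exists_newform_ringHom_of_occurs (isMid_KQ p (wilesLevel p t Smin Smin) qv) H vals hocc
      (hprime j) hM hv d hd1 hvd
  -- packaging
  have hMS : ∀ q : ℕ, q.Prime → q ∣ M₁ → q ∈ Smin ∪ Finset.univ.image qv :=
    fun q hqp hqd => Finset.mem_coe.mp (hNS q hqp (hqd.trans hdvd))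
  have hh' := hg.isNormalizedEigenform
  have hgood : ∀ ℓ : ℕ, ℓ.Prime → ℓ ∉ (↑(Smin ∪ Finset.univ.image qv) : Set ℕ) →
      ℓ.Prime ∧ ¬ ℓ ∣ wilesLevel p t Smin (Smin ∪ Finset.univ.image qv) ∧
        ℓ ∉ (↑(Smin ∪ Finset.univ.image qv) : Set ℕ) :=
    fun ℓ hℓ hℓS => ⟨hℓ, fun h => hℓS (hNS ℓ hℓ h), hℓS⟩
  have hle : (Fermat.Agent.S58.H94.chigOf hh'
      (↑(Smin ∪ Finset.univ.image qv) : Set ℕ)).range ≤ R₀ :=
    Fermat.Agent.S58.H94.chigOf_range_le hh' _ R₀
      (fun ℓ hℓ _ hℓS => hR ⟨ℓ, hgood ℓ hℓ hℓS⟩)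
      (fun q hqp hqd => Finset.mem_coe.mpr (hMS q hqp hqd))
  refine ⟨𝒪', i1, i2, i3, i4, i5, i6,
    (ev.comp (Algebra.TensorProduct.includeLeft :
      PQ.T →ₐ[𝒪] PQ.T ⊗[𝒪] MonoidAlgebra 𝒪 (∀ j : Fin r, (ZMod (qv j))ˣ))).toRingHom,
    hx, fun s => (hker s).symm, M₁, hM₁, g, hg, hfac, hMS,
    Fermat.Agent.S58.H94.chigOf hh' _, L.comp (Subring.inclusion hle),
    fun ℓ hℓ hℓM hℓS => Fermat.Agent.S58.H94.chigOf_T hh' _ hℓ hℓM hℓS, ?_⟩
  intro ℓ hℓ hℓN hℓM hℓS
  have h1 := hL ⟨ℓ, hℓ, hℓN, hℓS⟩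
  rw [RingHom.comp_apply]
  refine Eq.trans ?_ h1
  congr 1
  apply Subtype.ext
  show Fermat.Agent.S58.H94.chigOf hh' _ (CuspForm.heckeAlgebra.T hℓ hℓM hℓS) = _
  rw [Fermat.Agent.S58.H94.chigOf_T]

/-- `dictR` has the type of the leaf DICT-R, verbatim. -/
example : Fermat.Agent.S59.TW.H314.DictRStatement := dictR

end Fermat.Agent.S59.TW.Aut.H673
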