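import Fermat.Agent.S59.TW.Aut.H673.FrontEv
import Fermat.Agent.S59.TW.Aut.H673.DictRAux
import Fermat.Agent.S59.TW.Aut.H673.D561New
import Fermat.Agent.S59.TW.Aut.Skel
import Fermat.Agent.S59.TW.H564.ParPkg
import Fermat.Agent.S58.H94.EigChar

/-!
# DICT-R, general core: any level `Γ₁(M) ≤ K ≤ Γ₀(M)`, any package  (helper673)

The core of `Aut.H673.dictR` for an ARBITRARY intermediate group `K` (`IsMid M K`), an
arbitrary Hecke package `PQ : HeckePkg p 𝒪 ρbar t Smin Sig` and the full diamond group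
`(ℤ/M)ˣ` (no Taylor–Wiles vocabulary).  It serves the leaf DICT-R of the cell TW of row S59
(`K = K_Q`) and its twin IA-DICT-R of row HARD (`K = K_IA = Γ₀(N_min) ∩ Γ_H(Piv ∪ Q)`).

`dictR_gen` : let `V ⊆ X_K(𝒪)` be the localisation at the package (`IsLocPart`, any `Uset`),
`a : T → End_𝒪 V` with `T_ℓ ↦ ⟨ℓ⟩^h T_ℓ` (`ActsBy … (tOpTw hK 𝒪 h)`), `H` the twist hypothesis
`H658.TwistHyp K N' (fun ℓ => uOf M ℓ ^ h)`, `q ∥ M` (`M = M' · q`), `q² ∥ N'`,
`d ≡ 1 mod M'` a unit modulo `M`.  If `y ≠ 0` in `V` has PRIME annihilator in `T` and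
`(1 + ⟨d⟩ + … + ⟨d⟩^(n-1)) y = 0` with `n ≠ 0`, then there are a complete discrete valuation ring `O'` (characteristic `0`, finite residue
field), a LOCAL ring homomorphism `emb : T → O'` with kernel `Ann_T(y)`, and a newform `g` of a
level `M₁` with `q² ∥ M₁`, all of whose prime factors lie in `Sig`, whose eigen-character
`chig`, composed with `iota : chig.range → O'`, gives `emb (T_ℓ)` at the good primes: this is the
body of `H314.HasNewPt` / `H183.IAHasNewPt`, word for word.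
-/

set_option autoImplicit false
set_option linter.style.haveILetI false
set_option linter.unusedSectionVars false
set_option linter.unusedVariables false
set_option maxSynthPendingDepth 3

open Polynomial IsLocalRing CongruenceSubgroup
open scoped MatrixGroups TensorProduct

namespace Fermat.Agent.S59.TW.Aut.H673

open Fermat.Agent.S59.Arch Fermat.Agent.S59.TW.H959 Fermat.Agent.S59.TW.H653
open Fermat.Agent.S59.TW.Aut Fermat.Agent.S59.TW.H658
open Fermat.Agent.S59.TW.H81.D561 Fermat.Agent.S59.TW.Aut.H673.D561 ModularCurve.Period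

section

variable {p : ℕ} [hpF : Fact p.Prime]
  {𝒪 : Type} [CommRing 𝒪] [IsDomain 𝒪] [IsDiscreteValuationRing 𝒪]
  [IsAdicComplete (maximalIdeal 𝒪) 𝒪] [Finite (ResidueField 𝒪)] [CharZero 𝒪]
  {ρbar : ResidualGaloisRep (ResidueField 𝒪)} {t : PType} {Smin Sig : Finset ℕ}
  [NeZero (wilesLevel p t Smin Sig)]
  (PQ : HeckePkg p 𝒪 ρbar t Smin Sig)
  {M : ℕ} [NeZero M] {K : Subgroup SL(2, ℤ)} (hK : IsMid M K)
  {Uset : Set (ℕ × 𝒪)} (V : Submodule 𝒪 (Additive K →+ 𝒪))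
  (hV : IsLocPart hK (TsetOf PQ) Uset V)
  (h : ℕ) (a : PQ.T →ₐ[𝒪] Module.End 𝒪 V)

/-- `V ⊆ Hom(K, 𝒪)` is torsion-free over the domain `𝒪`. -/
theorem torsionFree_gen_h673 (c : 𝒪) (v : V) (hcv : c • v = 0) : c = 0 ∨ v = 0 := by
  by_cases hc : c = 0
  · exact Or.inl hc
  · right
    apply Subtype.ext
    refine AddMonoidHom.ext fun k => ?_
    have h1 : ((c • v : V) : Additive K →+ 𝒪) k = 0 := by rw [hcv]; rfl
    have h2 : c * (v : Additive K →+ 𝒪) k = 0 := h1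
    rcases mul_eq_zero.mp h2 with h3 | h3
    · exact absurd h3 hc
    · exact h3

/-- The diamond operators of `(ℤ/M)ˣ` on `V`. -/
noncomputable def diaU : (ZMod M)ˣ →* Module.End 𝒪 V where
  toFun u :=
    { toFun := fun v => ⟨diamondU hK u v, hV.diamondU_mem u v.2⟩
      map_add' := fun v w => Subtype.ext (diamondU_add hK u _ _)
      map_smul' := fun c v => Subtype.ext (diamondU_smul hK u c _) }
  map_one' := LinearMap.ext fun v => Subtype.ext (diamondU_one hK _)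
  map_mul' u u' := LinearMap.ext fun v => Subtype.ext (diamondU_mul hK u u' _)

theorem coe_diaU (u : (ZMod M)ˣ) (v : V) :
    ((diaU PQ hK V hV u v : V) : Additive K →+ 𝒪) = diamondU hK u v := rfl

/-- The diamond operators commute with the action of `T`. -/
theorem diaU_comm (hNS : ∀ q : ℕ, q.Prime → q ∣ wilesLevel p t Smin Sig → q ∈ Sig)
    (hMN : M ∣ wilesLevel p t Smin Sig) (ha : ActsBy PQ V a (tOpTw hK 𝒪 h))
    (u : (ZMod M)ˣ) (s : PQ.T) (v : V) :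
    diaU PQ hK V hV u (a s v) = a s (diaU PQ hK V hV u v) := by
  revert v
  refine pkg_induction PQ (fun q hq hqN => Finset.mem_coe.mpr (hNS q hq hqN))
    (fun s => ∀ v : V, diaU PQ hK V hV u (a s v) = a s (diaU PQ hK V hV u v)) ?_ ?_ ?_ ?_ s
  · intro c v
    rw [AlgHom.commutes]
    exact (diaU PQ hK V hV u).map_smul c v
  · intro x y hx hy v
    rw [map_add, LinearMap.add_apply, map_add, hx, hy, LinearMap.add_apply]
  · intro x y hx hy v
    rw [map_mul, Module.End.mul_apply, hx, hy, Module.End.mul_apply]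
  · intro ℓ hℓ hℓN hℓS v
    have hℓM : ¬ ℓ ∣ M := fun h' => hℓN (h'.trans hMN)
    have : Fact ℓ.Prime := ⟨hℓ⟩
    apply Subtype.ext
    rw [coe_diaU, ha ℓ hℓ hℓN hℓS v, ha ℓ hℓ hℓN hℓS (diaU PQ hK V hV u v), coe_diaU]
    unfold tOpTw tOp
    have h1 := diamondU_TK hK hℓM u (v : Additive K →+ 𝒪)
    rw [h1, ← diamondU_mul, ← diamondU_mul, mul_comm]

/-- The operators on `V`: `a (T_ℓ)` and the diamond operators. -/
noncomputable def opVg :
    OpIdx (wilesLevel p t Smin Sig) (↑Sig : Set ℕ) M → Module.End 𝒪 V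
  | Sum.inl i => a (PQ.H.π (CuspForm.heckeAlgebra.T i.2.1 i.2.2.1 i.2.2.2))
  | Sum.inr d => diaU PQ hK V hV d

/-- The operators in `T ⊗ 𝒪[(ℤ/M)ˣ]`. -/
noncomputable def opTg :
    OpIdx (wilesLevel p t Smin Sig) (↑Sig : Set ℕ) M → PQ.T ⊗[𝒪] MonoidAlgebra 𝒪 (ZMod M)ˣ
  | Sum.inl i => (PQ.H.π (CuspForm.heckeAlgebra.T i.2.1 i.2.2.1 i.2.2.2)) ⊗ₜ[𝒪] 1
  | Sum.inr d => (1 : PQ.T) ⊗ₜ[𝒪] MonoidAlgebra.of 𝒪 (ZMod M)ˣ d

/-- The operators on `V` are the restrictions of the operators `opB` on `X_K(𝒪)`. -/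
theorem coe_opVg (ha : ActsBy PQ V a (tOpTw hK 𝒪 h)) (hMN : M ∣ wilesLevel p t Smin Sig)
    (j : OpIdx (wilesLevel p t Smin Sig) (↑Sig : Set ℕ) M) (v : V) :
    ((opVg PQ hK V hV a j v : V) : Additive K →+ 𝒪) =
      opB hK 𝒪 hMN (fun ℓ => uOf M ℓ ^ h) j (v : Additive K →+ 𝒪) := by
  rcases j with i | d
  · exact ha i.1 i.2.1 i.2.2.1 i.2.2.2 v
  · rfl

/-- The sum of the iterates of a diamond operator, on `V` and on `X_K(𝒪)`. -/
theorem coe_sum_pow_diaU (d : (ZMod M)ˣ) (n : ℕ) (y : V) :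
    (((∑ k ∈ Finset.range n, diaU PQ hK V hV d ^ k) y : V) : Additive K →+ 𝒪) =
      ∑ k ∈ Finset.range n, (diamondU hK d)^[k] (y : Additive K →+ 𝒪) := by
  rw [LinearMap.sum_apply, AddSubmonoidClass.coe_finsetSum]
  refine Finset.sum_congr rfl fun k _ => ?_
  rw [Module.End.pow_apply]
  have hsc : Function.Semiconj (fun v : V => (v : Additive K →+ 𝒪))
      (diaU PQ hK V hV d) (diamondU hK d) := fun v => rfl
  exact (hsc.iterate_right k).eq y

include hpF hV in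
/-- **DICT-R, general core.** -/
theorem dictR_gen [K.FiniteIndex] (hRH : ResidualHyp p 𝒪 ρbar Smin) (hpSig : p ∈ Sig)
    (hNS : ∀ q : ℕ, q.Prime → q ∣ wilesLevel p t Smin Sig → q ∈ Sig)
    (H : TwistHyp K (wilesLevel p t Smin Sig) (fun ℓ => uOf M ℓ ^ h))
    (ha : ActsBy PQ V a (tOpTw hK 𝒪 h))
    {q M' : ℕ} (hq : q.Prime) (hM : M = M' * q)
    (hv : (wilesLevel p t Smin Sig).factorization q = 2)
    (d : (ZMod M)ˣ) (hd : ZMod.unitsMap (Dvd.intro _ hM.symm : M' ∣ M) d = 1)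
    (n : ℕ) (hn : n ≠ 0)
    (y : V) (hy : y ≠ 0) (hann : ∀ s s' : PQ.T, a (s * s') y = 0 → a s y = 0 ∨ a s' y = 0)
    (hΦ : (∑ k ∈ Finset.range n, (diamondU hK d)^[k] (y : Additive K →+ 𝒪)) = 0) :
    ∃ (O' : Type) (_ : CommRing O') (_ : IsDomain O') (_ : IsDiscreteValuationRing O')
      (_ : IsAdicComplete (maximalIdeal O') O') (_ : Finite (ResidueField O')) (_ : CharZero O')
      (emb : PQ.T →+* O'), IsLocalHom emb ∧ (∀ s : PQ.T, a s y = 0 ↔ emb s = 0) ∧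
      ∃ (M₁ : ℕ) (_ : NeZero M₁) (g : CuspForm (Gamma0 M₁) 2), g.IsNewform ∧
        M₁.factorization q = 2 ∧
        (∀ q' : ℕ, q'.Prime → q' ∣ M₁ → q' ∈ Sig) ∧
        ∃ (chig : CuspForm.heckeAlgebra M₁ 2 (↑Sig : Set ℕ) →+* ℂ)
          (iota : chig.range →+* O'),
          (∀ (ℓ : ℕ) (hℓ : ℓ.Prime) (hℓM : ¬ ℓ ∣ M₁) (hℓS : ℓ ∉ (↑Sig : Set ℕ)),
            chig (CuspForm.heckeAlgebra.T hℓ hℓM hℓS) = ModularFormClass.qCoeff g ℓ) ∧
          ∀ (ℓ : ℕ) (hℓ : ℓ.Prime)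
            (hℓN : ¬ ℓ ∣ wilesLevel p t Smin Sig) (hℓM : ¬ ℓ ∣ M₁)
            (hℓS : ℓ ∉ (↑Sig : Set ℕ)),
            iota (chig.rangeRestrict (CuspForm.heckeAlgebra.T hℓ hℓM hℓS)) =
              emb (PQ.H.π (CuspForm.heckeAlgebra.T hℓ hℓN hℓS)) := by
  classical
  have hp : p.Prime := Fact.out
  have hMN : M ∣ wilesLevel p t Smin Sig := H.dvd
  haveI := fg_of_finiteIndex K
  -- PAR
  have hpar : ∀ v ∈ V, IsParabolicHom K v :=
    Fermat.Agent.S59.TW.H564.isParabolic_of_pkg hRH hpSig PQ hNS hK hMN hV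
  -- FRONT
  have hcomm : ∀ (s : PQ.T) (g : (ZMod M)ˣ), Commute (a s) (diaU PQ hK V hV g) := by
    intro s g
    refine LinearMap.ext fun v => ?_
    rw [Module.End.mul_apply, Module.End.mul_apply]
    exact (diaU_comm PQ hK V hV h a hNS hMN ha g s v).symm
  have hΦ' : (∑ k ∈ Finset.range n, diaU PQ hK V hV d ^ k) y = 0 := by
    apply Subtype.ext
    rw [coe_sum_pow_diaU, hΦ]
    rfl
  obtain ⟨𝒪', i1, i2, i3, i4, i5, i6, i7, ev, hloc, hinj', hx, hker, hχ, hrel⟩ :=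
    front_abs_ev 𝒪 PQ.T (ZMod M)ˣ V (torsionFree_gen_h673 V) a
      (diaU PQ hK V hV) hcomm y hy hann d n hΦ'
  -- the system of values
  set vals : OpIdx (wilesLevel p t Smin Sig) (↑Sig : Set ℕ) M → 𝒪' :=
    fun i => ev (opTg PQ i) with hvals
  -- it occurs in the parabolic classes
  have hocc : ∀ P : FreeAlgebra ℤ (OpIdx (wilesLevel p t Smin Sig) (↑Sig : Set ℕ) M),
      (∀ y : Additive K →+ ℤ, IsParabolicHom K y →
        FreeAlgebra.lift ℤ (opB hK ℤ H.dvd (fun ℓ => uOf M ℓ ^ h)) P y = 0) →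
      FreeAlgebra.lift ℤ vals P = 0 := by
    intro P hP
    have h𝒪 : ∀ y : Additive K →+ 𝒪, IsParabolicHom K y →
        FreeAlgebra.lift ℤ (opB hK 𝒪 H.dvd (fun ℓ => uOf M ℓ ^ h)) P y = 0 := by
      intro y hy
      refine hom_induction_of_torsionFree (parSet K)
        (fun y => FreeAlgebra.lift ℤ (opB hK 𝒪 H.dvd (fun ℓ => uOf M ℓ ^ h)) P y = 0)
        ?_ (map_zero _) ?_ y hy
      · intro φ ψ hφ hψ
        rw [map_add, hφ, hψ, add_zero]
      · intro ψ c hψ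
        have h1 := lift_intertwine
          (opB hK ℤ H.dvd (fun ℓ => uOf M ℓ ^ h))
          (opB hK 𝒪 H.dvd (fun ℓ => uOf M ℓ ^ h))
          (compAdd _ (zmultiplesHom 𝒪 c))
          (fun i m => (opB_comp hK H.dvd _ i (zmultiplesHom 𝒪 c) m).symm) P ψ
        simp only [compAdd_apply] at h1
        rw [← h1, hP ψ hψ]
        exact AddMonoidHom.comp_zero _
    have hV0 : FreeAlgebra.lift ℤ (opVg PQ hK V hV a) P = 0 := by
      refine LinearMap.ext fun v => Subtype.ext ?_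
      have h1 := lift_intertwine
        (fun i => endToInt 𝒪 V (opVg PQ hK V hV a i))
        (opB hK 𝒪 H.dvd (fun ℓ => uOf M ℓ ^ h))
        V.subtype.toAddMonoidHom
        (fun i m => coe_opVg PQ hK V hV h a ha H.dvd i m) P v
      rw [lift_endToInt] at h1
      exact h1.trans (h𝒪 _ (hpar _ v.2))
    have h2 : thetaH673 a (diaU PQ hK V hV) hcomm
        (FreeAlgebra.lift ℤ (opTg PQ) P) = 0 := by
      have h3 := ringHom_lift_h673 (thetaH673 a (diaU PQ hK V hV) hcomm).toRingHom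
        (opTg PQ) P
      have h4 : (fun i => (thetaH673 a (diaU PQ hK V hV) hcomm).toRingHom
          (opTg PQ i)) = opVg PQ hK V hV a := by
        funext i
        rcases i with i | d
        · show thetaH673 a (diaU PQ hK V hV) hcomm (_ ⊗ₜ[𝒪] 1) = _
          rw [← Algebra.TensorProduct.includeLeft_apply (R := 𝒪) (S := 𝒪), thetaH673_left]
          rfl
        · show thetaH673 a (diaU PQ hK V hV) hcomm (1 ⊗ₜ[𝒪] _) = _
          rw [thetaH673_right]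
          rfl
      rw [h4, hV0] at h3
      exact h3
    have h5 : ev (FreeAlgebra.lift ℤ (opTg PQ) P) = FreeAlgebra.lift ℤ vals P :=
      ringHom_lift_h673 ev.toRingHom (opTg PQ) P
    exact h5.symm.trans (hrel _ h2)
  have hvd : vals (Sum.inr d) ≠ 1 := by
    intro h1
    have h2 : ev ((1 : PQ.T) ⊗ₜ[𝒪] MonoidAlgebra.of 𝒪 (ZMod M)ˣ d) = 1 := h1
    rw [h2] at hχ
    simp only [one_pow, Finset.sum_const, Finset.card_range, nsmul_eq_mul, mul_one] at hχ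
    exact hn (Nat.cast_eq_zero.mp hχ)
  -- DICT
  obtain ⟨M₁, hM₁, g, hg, R₀, hR, L, hdvd, hfac, hL⟩ :=
    exists_newform_ringHom_of_occurs hK H vals hocc hq hM hv d hd hvd
  -- packaging
  have hMS : ∀ q' : ℕ, q'.Prime → q' ∣ M₁ → q' ∈ Sig :=
    fun q' hqp hqd => hNS q' hqp (hqd.trans hdvd)
  have hh' := hg.isNormalizedEigenform
  have hgood : ∀ ℓ : ℕ, ℓ.Prime → ℓ ∉ (↑Sig : Set ℕ) →
      ℓ.Prime ∧ ¬ ℓ ∣ wilesLevel p t Smin Sig ∧ ℓ ∉ (↑Sig : Set ℕ) :=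
    fun ℓ hℓ hℓS => ⟨hℓ, fun h => hℓS (Finset.mem_coe.mpr (hNS ℓ hℓ h)), hℓS⟩
  have hle : (Fermat.Agent.S58.H94.chigOf hh' (↑Sig : Set ℕ)).range ≤ R₀ :=
    Fermat.Agent.S58.H94.chigOf_range_le hh' _ R₀
      (fun ℓ hℓ _ hℓS => hR ⟨ℓ, hgood ℓ hℓ hℓS⟩)
      (fun q' hqp hqd => Finset.mem_coe.mpr (hMS q' hqp hqd))
  refine ⟨𝒪', i1, i2, i3, i4, i5, i6,
    (ev.comp (Algebra.TensorProduct.includeLeft :
      PQ.T →ₐ[𝒪] PQ.T ⊗[𝒪] MonoidAlgebra 𝒪 (ZMod M)ˣ)).toRingHom,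
    hx, fun s => (hker s).symm, M₁, hM₁, g, hg, hfac, hMS,
    Fermat.Agent.S58.H94.chigOf hh' _, L.comp (Subring.inclusion hle),
    fun ℓ hℓ hℓM hℓS => Fermat.Agent.S58.H94.chigOf_T hh' _ hℓ hℓM hℓS, ?_⟩
  intro ℓ hℓ hℓN hℓM hℓS
  have h1 := hL ⟨ℓ, hℓ, hℓN, hℓS⟩
  rw [RingHom.comp_apply]
  refine Eq.trans ?_ h1
  congr 1
  apply Subtype.ext
  show Fermat.Agent.S58.H94.chigOf hh' _ (CuspForm.heckeAlgebra.T hℓ hℓM hℓS) = _
  rw [Fermat.Agent.S58.H94.chigOf_T]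

end

end Fermat.Agent.S59.TW.Aut.H673
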