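import Fermat.Agent.S59.TW.Aut.H673.FrontDVR

/-!
# S59 / cell TW, AUT leaf CMP, part (R), FRONT — abstract form  (helper673)

`front_abs` : `T` a local ring, finite over the complete discrete valuation ring `𝒪`
(characteristic zero, finite residue field), acting `𝒪`-linearly on an `𝒪`-torsion-free module `V`
through `a`; `G` a finite commutative group acting through `d`, commuting with `a`; `y ≠ 0` in `V`
with PRIME annihilator in `T`, killed by `1 + d g₀ + … + d g₀ ^ (n - 1)`.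

Then there are a complete discrete valuation ring `𝒪'` (characteristic zero, finite residue
field, local over `𝒪`), a local `𝒪`-algebra homomorphism `x : T → 𝒪'` with kernel `Ann_T(y)` and
a character `χ : G → 𝒪'` with `1 + χ g₀ + … + χ g₀ ^ (n - 1) = 0`, such that EVERY `𝒪`-linear
relation `∑ c_i a(s_i) d(g_i) = 0` between the operators on `V` holds for `(x, χ)`:
`∑ c_i x(s_i) χ(g_i) = 0`.

(`B = T ⊗_𝒪 𝒪[G]` acts on `V`; an associated prime `𝔔` of `B y`; `𝒪'` = the integral closure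
of `𝒪` in `Frac (B ⧸ 𝔔)`.)
-/

set_option autoImplicit false
set_option linter.style.haveILetI false
set_option linter.unusedSectionVars false

open IsLocalRing
open scoped TensorProduct

namespace Fermat.Agent.S59.TW.Aut.H673

section Theta

variable {𝒪 T G V : Type*} [CommRing 𝒪] [CommRing T] [Algebra 𝒪 T] [CommGroup G]
  [AddCommGroup V] [Module 𝒪 V]
  (a : T →ₐ[𝒪] Module.End 𝒪 V) (d : G →* Module.End 𝒪 V)

theorem commute_lift_h673 (hcomm : ∀ s g, Commute (a s) (d g)) (s : T)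
    (b : MonoidAlgebra 𝒪 G) :
    Commute (a s) (MonoidAlgebra.lift 𝒪 (Module.End 𝒪 V) G d b) := by
  induction b using MonoidAlgebra.induction_on with
  | of g =>
    rw [MonoidAlgebra.lift_of]
    exact hcomm s g
  | add b₁ b₂ h₁ h₂ =>
    rw [map_add]
    exact h₁.add_right h₂
  | smul c b h =>
    rw [map_smul]
    exact h.smul_right c

/-- The action of `B = T ⊗ 𝒪[G]` on `V`. -/
noncomputable def thetaH673 (hcomm : ∀ s g, Commute (a s) (d g)) :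
    T ⊗[𝒪] MonoidAlgebra 𝒪 G →ₐ[𝒪] Module.End 𝒪 V :=
  Algebra.TensorProduct.lift a (MonoidAlgebra.lift 𝒪 (Module.End 𝒪 V) G d)
    (fun s b => commute_lift_h673 a d hcomm s b)

theorem thetaH673_tmul (hcomm : ∀ s g, Commute (a s) (d g)) (s : T) (g : G) :
    thetaH673 a d hcomm (s ⊗ₜ[𝒪] MonoidAlgebra.of 𝒪 G g) = a s * d g := by
  rw [thetaH673, Algebra.TensorProduct.lift_tmul, MonoidAlgebra.lift_of]

theorem thetaH673_left (hcomm : ∀ s g, Commute (a s) (d g)) (s : T) :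
    thetaH673 a d hcomm
      ((Algebra.TensorProduct.includeLeft : T →ₐ[𝒪] T ⊗[𝒪] MonoidAlgebra 𝒪 G) s) = a s := by
  rw [Algebra.TensorProduct.includeLeft_apply, thetaH673, Algebra.TensorProduct.lift_tmul,
    map_one, mul_one]

theorem thetaH673_right (hcomm : ∀ s g, Commute (a s) (d g)) (g : G) :
    thetaH673 a d hcomm ((1 : T) ⊗ₜ[𝒪] MonoidAlgebra.of 𝒪 G g) = d g := by
  rw [thetaH673_tmul, map_one, one_mul]

end Theta

theorem front_abs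
    (𝒪 : Type) [CommRing 𝒪] [IsDomain 𝒪] [IsDiscreteValuationRing 𝒪]
    [IsAdicComplete (maximalIdeal 𝒪) 𝒪] [Finite (ResidueField 𝒪)] [CharZero 𝒪]
    (T : Type) [CommRing T] [IsLocalRing T] [Algebra 𝒪 T] [Module.Finite 𝒪 T]
    (G : Type) [CommGroup G] [Finite G]
    (V : Type) [AddCommGroup V] [Module 𝒪 V]
    (htf : ∀ (c : 𝒪) (v : V), c • v = 0 → c = 0 ∨ v = 0)
    (a : T →ₐ[𝒪] Module.End 𝒪 V) (d : G →* Module.End 𝒪 V)
    (hcomm : ∀ s g, Commute (a s) (d g))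
    (y : V) (hy : y ≠ 0) (hprime : ∀ s t : T, a (s * t) y = 0 → a s y = 0 ∨ a t y = 0)
    (g₀ : G) (n : ℕ) (hΦ : (∑ k ∈ Finset.range n, d g₀ ^ k) y = 0) :
    ∃ (𝒪' : Type) (_ : CommRing 𝒪') (_ : IsDomain 𝒪') (_ : IsDiscreteValuationRing 𝒪')
      (_ : IsAdicComplete (maximalIdeal 𝒪') 𝒪') (_ : Finite (ResidueField 𝒪')) (_ : CharZero 𝒪')
      (_ : Algebra 𝒪 𝒪') (x : T →ₐ[𝒪] 𝒪') (χ : G →* 𝒪'),
      IsLocalHom (algebraMap 𝒪 𝒪') ∧ Function.Injective (algebraMap 𝒪 𝒪') ∧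
      IsLocalHom x.toRingHom ∧
      (∀ s, x s = 0 ↔ a s y = 0) ∧ (∑ k ∈ Finset.range n, χ g₀ ^ k = 0) ∧
      ∀ (ι : Type) (F : Finset ι) (c : ι → 𝒪) (s : ι → T) (g : ι → G),
        (∑ i ∈ F, c i • (a (s i) * d (g i)) = 0) →
          ∑ i ∈ F, algebraMap 𝒪 𝒪' (c i) * x (s i) * χ (g i) = 0 := by
  classical
  haveI : Fintype G := Fintype.ofFinite G
  haveI : Module.Finite 𝒪 (T ⊗[𝒪] MonoidAlgebra 𝒪 G) := inferInstance
  haveI : IsNoetherianRing (T ⊗[𝒪] MonoidAlgebra 𝒪 G) :=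
    IsNoetherianRing.of_finite 𝒪 _
  haveI : Algebra.IsIntegral 𝒪 T := Algebra.IsIntegral.of_finite 𝒪 T
  set Θ := thetaH673 a d hcomm with hΘ
  letI : Module (T ⊗[𝒪] MonoidAlgebra 𝒪 G) V := Module.compHom V Θ.toRingHom
  have hsmul : ∀ (b : T ⊗[𝒪] MonoidAlgebra 𝒪 G) (v : V), b • v = Θ b v := fun _ _ => rfl
  haveI : IsScalarTower 𝒪 (T ⊗[𝒪] MonoidAlgebra 𝒪 G) V := ⟨fun c b v => by
    rw [hsmul, hsmul, map_smul, LinearMap.smul_apply]⟩
  -- the elements killing `y`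
  set z₀ : T ⊗[𝒪] MonoidAlgebra 𝒪 G :=
    ∑ k ∈ Finset.range n, ((1 : T) ⊗ₜ[𝒪] MonoidAlgebra.of 𝒪 G g₀) ^ k with hz₀
  have hΘz₀ : Θ z₀ = ∑ k ∈ Finset.range n, d g₀ ^ k := by
    rw [hz₀, map_sum]
    refine Finset.sum_congr rfl fun k _ => ?_
    rw [map_pow, thetaH673_right]
  obtain ⟨𝔔, h𝔔p, hZ𝔔, h𝔔T, h𝔔𝒪⟩ := exists_prime_over_ann
    (Algebra.TensorProduct.includeLeft : T →ₐ[𝒪] T ⊗[𝒪] MonoidAlgebra 𝒪 G) htf y hy
    (fun s t hst => by
      rw [hsmul, thetaH673_left] at hst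
      rw [hsmul, hsmul, thetaH673_left, thetaH673_left]
      exact hprime s t hst)
    ({b | Θ b = 0} ∪ {z₀})
    (fun z hz => by
      rcases hz with hz | hz
      · rw [hsmul, (hz : Θ z = 0), LinearMap.zero_apply]
      · rw [Set.mem_singleton_iff.mp hz, hsmul, hΘz₀]
        exact hΦ)
  haveI := h𝔔p
  obtain ⟨𝒪', i1, i2, i3, i4, i5, i6, i7, ev, hloc, hinj, hev⟩ :=
    exists_dvr_point 𝒪 (T ⊗[𝒪] MonoidAlgebra 𝒪 G) 𝔔 h𝔔𝒪
  let x : T →ₐ[𝒪] 𝒪' := ev.comp Algebra.TensorProduct.includeLeft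
  let χ : G →* 𝒪' := (ev : T ⊗[𝒪] MonoidAlgebra 𝒪 G →* 𝒪').comp
    (((Algebra.TensorProduct.includeRight : MonoidAlgebra 𝒪 G →ₐ[𝒪] T ⊗[𝒪] MonoidAlgebra 𝒪 G) :
      MonoidAlgebra 𝒪 G →* T ⊗[𝒪] MonoidAlgebra 𝒪 G).comp (MonoidAlgebra.of 𝒪 G))
  have hχ : ∀ g, χ g = ev ((1 : T) ⊗ₜ[𝒪] MonoidAlgebra.of 𝒪 G g) := fun g => rfl
  have hx : ∀ s, x s = ev (s ⊗ₜ[𝒪] (1 : MonoidAlgebra 𝒪 G)) := fun s => rfl
  refine ⟨𝒪', i1, i2, i3, i4, i5, i6, i7, x, χ, hloc, hinj, ?_, ?_, ?_, ?_⟩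
  · haveI := hloc
    exact isLocalHom_of_integral_h673 𝒪 T 𝒪' x.toRingHom (fun c => x.commutes c)
  · intro s
    rw [hx, hev, ← Algebra.TensorProduct.includeLeft_apply (R := 𝒪) (S := 𝒪), h𝔔T, hsmul,
      thetaH673_left]
  · have h1 : ev z₀ = 0 := (hev z₀).mpr (hZ𝔔 (Or.inr rfl))
    rw [hz₀, map_sum] at h1
    rw [← h1]
    refine Finset.sum_congr rfl fun k _ => ?_
    rw [map_pow, hχ]
  · intro ι F c s g hrel
    have h1 : Θ (∑ i ∈ F, c i • (s i ⊗ₜ[𝒪] MonoidAlgebra.of 𝒪 G (g i))) = 0 := by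
      rw [map_sum, ← hrel]
      refine Finset.sum_congr rfl fun i _ => ?_
      rw [map_smul, thetaH673_tmul]
    have h2 : ev (∑ i ∈ F, c i • (s i ⊗ₜ[𝒪] MonoidAlgebra.of 𝒪 G (g i))) = 0 :=
      (hev _).mpr (hZ𝔔 (Or.inl h1))
    rw [map_sum] at h2
    rw [← h2]
    refine Finset.sum_congr rfl fun i _ => ?_
    rw [map_smul, Algebra.smul_def, mul_assoc]
    congr 1
    rw [hx, hχ, ← map_mul, Algebra.TensorProduct.tmul_mul_tmul, mul_one, one_mul]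

end Fermat.Agent.S59.TW.Aut.H673
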