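import Mathlib

/-!
# S59 / cell TW, AUT leaf CMP, part (R), FRONT — abstract core  (helper673)

`exists_prime_over_ann` : `B` a commutative Noetherian ring acting on an `𝒪`-torsion-free module
`V`, `f : T → B` with `T` integral over the domain `𝒪`, `y ≠ 0` in `V` whose annihilator in `T` is
prime, `Z ⊆ B` a set of operators killing `y`.  Then there is a prime `𝔔` of `B` containing `Z`,
lying over `Ann_T(y)`, with `𝔔 ∩ 𝒪 = 0`.  (An associated prime of `B y`; incomparability.)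
-/

set_option autoImplicit false

namespace Fermat.Agent.S59.TW.Aut.H673

theorem exists_prime_over_ann
    {𝒪 T B V : Type*} [CommRing 𝒪] [IsDomain 𝒪] [CommRing T] [Algebra 𝒪 T]
    [Algebra.IsIntegral 𝒪 T] [CommRing B] [Algebra 𝒪 B] [IsNoetherianRing B]
    (f : T →ₐ[𝒪] B)
    [AddCommGroup V] [Module 𝒪 V] [Module B V] [IsScalarTower 𝒪 B V]
    (htf : ∀ (c : 𝒪) (v : V), c • v = 0 → c = 0 ∨ v = 0)
    (y : V) (hy : y ≠ 0)
    (hprime : ∀ s t : T, f (s * t) • y = 0 → f s • y = 0 ∨ f t • y = 0)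
    (Z : Set B) (hZ : ∀ z ∈ Z, z • y = 0) :
    ∃ 𝔔 : Ideal B, 𝔔.IsPrime ∧ Z ⊆ 𝔔 ∧ (∀ s : T, f s ∈ 𝔔 ↔ f s • y = 0) ∧
      ∀ c : 𝒪, algebraMap 𝒪 B c ∈ 𝔔 → c = 0 := by
  classical
  -- the cyclic module
  have hyM : y ∈ Submodule.span B {y} := Submodule.mem_span_singleton_self y
  have hx : (⟨y, hyM⟩ : Submodule.span B {y}) ≠ 0 := fun h => hy (congrArg Subtype.val h)
  obtain ⟨𝔔, h𝔔, -⟩ := exists_le_isAssociatedPrime_of_isNoetherianRing B
    (⟨y, hyM⟩ : Submodule.span B {y}) hx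
  rw [isAssociatedPrime_iff] at h𝔔
  obtain ⟨h𝔔p, v, hv⟩ := h𝔔
  have hmem : ∀ b : B, b ∈ 𝔔 ↔ b • (v : V) = 0 := by
    intro b
    rw [hv, Submodule.mem_colon_singleton, Submodule.mem_bot]
    constructor
    · intro h
      have := congrArg Subtype.val h
      simpa using this
    · intro h
      apply Subtype.ext
      simpa using h
  have hv0 : (v : V) ≠ 0 := by
    intro h
    apply h𝔔p.ne_top
    rw [Ideal.eq_top_iff_one, hmem, h, smul_zero]
  obtain ⟨b₀, hb₀⟩ := Submodule.mem_span_singleton.mp v.2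
  have hkill : ∀ b : B, b • y = 0 → b ∈ 𝔔 := by
    intro b hb
    rw [hmem, ← hb₀, smul_smul, mul_comm, ← smul_smul, hb, smul_zero]
  have h𝒪 : ∀ c : 𝒪, algebraMap 𝒪 B c ∈ 𝔔 → c = 0 := by
    intro c hc
    rw [hmem, algebraMap_smul] at hc
    rcases htf c _ hc with h | h
    · exact h
    · exact absurd h hv0
  -- the annihilator of `y` in `T`
  let 𝔮 : Ideal T := Ideal.comap f.toRingHom ((⊥ : Submodule B V).colon {y})
  have h𝔮mem : ∀ s : T, s ∈ 𝔮 ↔ f s • y = 0 := by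
    intro s
    show f s ∈ (⊥ : Submodule B V).colon {y} ↔ _
    rw [Submodule.mem_colon_singleton, Submodule.mem_bot]
  have h𝔮p : 𝔮.IsPrime := by
    refine ⟨?_, ?_⟩
    · intro h
      have h1 : (1 : T) ∈ 𝔮 := by rw [h]; exact Submodule.mem_top
      rw [h𝔮mem, map_one, one_smul] at h1
      exact hy h1
    · intro s t hst
      rw [h𝔮mem] at hst
      rw [h𝔮mem, h𝔮mem]
      exact hprime s t hst
  refine ⟨𝔔, h𝔔p, fun z hz => hkill z (hZ z hz), fun s => ⟨fun hs => ?_, fun hs => hkill _ hs⟩,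
    h𝒪⟩
  -- incomparability
  rw [← h𝔮mem]
  let J : Ideal (T ⧸ 𝔮) := Ideal.map (Ideal.Quotient.mk 𝔮) (Ideal.comap f.toRingHom 𝔔)
  have hle : 𝔮 ≤ Ideal.comap f.toRingHom 𝔔 := fun s hs => hkill _ ((h𝔮mem s).mp hs)
  have hJ : J.comap (algebraMap 𝒪 (T ⧸ 𝔮)) = ⊥ := by
    rw [eq_bot_iff]
    intro c hc
    rw [Ideal.mem_comap] at hc
    have h1 : algebraMap 𝒪 (T ⧸ 𝔮) c = Ideal.Quotient.mk 𝔮 (algebraMap 𝒪 T c) := rfl
    rw [h1] at hc
    have h2 : algebraMap 𝒪 T c ∈ Ideal.comap f.toRingHom 𝔔 := by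
      have h3 := Ideal.mem_comap.mpr hc
      rw [Ideal.comap_map_of_surjective _ Ideal.Quotient.mk_surjective] at h3
      rw [← RingHom.ker_eq_comap_bot, Ideal.mk_ker, sup_eq_left.mpr hle] at h3
      exact h3
    have h4 : algebraMap 𝒪 B c ∈ 𝔔 := by
      have := Ideal.mem_comap.mp h2
      rwa [AlgHom.toRingHom_eq_coe, RingHom.coe_coe, AlgHom.commutes] at this
    rw [h𝒪 c h4]
    exact Ideal.zero_mem _
  haveI : IsDomain (T ⧸ 𝔮) := Ideal.Quotient.isDomain 𝔮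
  have hJ0 : J = ⊥ := Ideal.eq_bot_of_comap_eq_bot hJ
  have h5 : Ideal.Quotient.mk 𝔮 s ∈ J := Ideal.mem_map_of_mem _ (Ideal.mem_comap.mpr hs)
  rw [hJ0, Ideal.mem_bot] at h5
  exact Ideal.Quotient.eq_zero_iff_mem.mp h5

end Fermat.Agent.S59.TW.Aut.H673
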