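import Fermat.Agent.S59.TW.Aut.H673.FrontAbs

/-!
# S59 / cell TW, AUT leaf CMP, part (R), FRONT — the point on `T ⊗ 𝒪[G]`  (helper673)

`front_abs_ev` : same hypotheses as `front_abs`; the conclusion exports the `𝒪`-algebra
homomorphism `ev : T ⊗_𝒪 𝒪[G] → 𝒪'` itself, with `ev b = 0` for EVERY `b` acting by zero on `V`
(so that any polynomial relation between the operators on `V`, in any presentation, holds for
the values of `ev`).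
-/

set_option autoImplicit false
set_option linter.style.haveILetI false
set_option linter.unusedSectionVars false

open IsLocalRing
open scoped TensorProduct

namespace Fermat.Agent.S59.TW.Aut.H673

theorem front_abs_ev
    (𝒪 : Type) [CommRing 𝒪] [IsDomain 𝒪] [IsDiscreteValuationRing 𝒪]
    [IsAdicComplete (maximalIdeal 𝒪) 𝒪] [Finite (ResidueField 𝒪)] [CharZero 𝒪]
    (T : Type) [CommRing T] [IsLocalRing T] [Algebra 𝒪 T] [Module.Finite 𝒪 T]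
    (G : Type) [CommGroup G] [Finite G]
    (V : Type) [AddCommGroup V] [Module 𝒪 V]
    (htf : ∀ (c : 𝒪) (v : V), c • v = 0 → c = 0 ∨ v = 0)
    (a : T →ₐ[𝒪] Module.End 𝒪 V) (d : G →* Module.End 𝒪 V)
    (hcomm : ∀ s g, Commute (a s) (d g))
    (y : V) (hy : y ≠ 0) (hprime : ∀ s t : T, a (s * t) y = 0 → a s y = 0 ∨ a t y = 0)
    (g₀ : G) (n : ℕ) (hΦ : (∑ k ∈ Finset.range n, d g₀ ^ k) y = 0) :
    ∃ (𝒪' : Type) (_ : CommRing 𝒪') (_ : IsDomain 𝒪') (_ : IsDiscreteValuationRing 𝒪')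
      (_ : IsAdicComplete (maximalIdeal 𝒪') 𝒪') (_ : Finite (ResidueField 𝒪')) (_ : CharZero 𝒪')
      (_ : Algebra 𝒪 𝒪') (ev : T ⊗[𝒪] MonoidAlgebra 𝒪 G →ₐ[𝒪] 𝒪'),
      IsLocalHom (algebraMap 𝒪 𝒪') ∧ Function.Injective (algebraMap 𝒪 𝒪') ∧
      IsLocalHom (ev.comp
        (Algebra.TensorProduct.includeLeft : T →ₐ[𝒪] T ⊗[𝒪] MonoidAlgebra 𝒪 G)).toRingHom ∧
      (∀ s : T, ev (s ⊗ₜ[𝒪] (1 : MonoidAlgebra 𝒪 G)) = 0 ↔ a s y = 0) ∧
      (∑ k ∈ Finset.range n, ev ((1 : T) ⊗ₜ[𝒪] MonoidAlgebra.of 𝒪 G g₀) ^ k = 0) ∧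
      ∀ b : T ⊗[𝒪] MonoidAlgebra 𝒪 G, thetaH673 a d hcomm b = 0 → ev b = 0 := by
  classical
  haveI : Fintype G := Fintype.ofFinite G
  haveI : Module.Finite 𝒪 (T ⊗[𝒪] MonoidAlgebra 𝒪 G) := inferInstance
  haveI : IsNoetherianRing (T ⊗[𝒪] MonoidAlgebra 𝒪 G) :=
    IsNoetherianRing.of_finite 𝒪 _
  haveI : Algebra.IsIntegral 𝒪 T := Algebra.IsIntegral.of_finite 𝒪 T
  set Θ := thetaH673 a d hcomm with hΘ
  letI : Module (T ⊗[𝒪] MonoidAlgebra 𝒪 G) V := Module.compHom V Θ.toRingHom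
  have hsmul : ∀ (b : T ⊗[𝒪] MonoidAlgebra 𝒪 G) (v : V), b • v = Θ b v := fun _ _ => rfl
  haveI : IsScalarTower 𝒪 (T ⊗[𝒪] MonoidAlgebra 𝒪 G) V := ⟨fun c b v => by
    rw [hsmul, hsmul, map_smul, LinearMap.smul_apply]⟩
  -- the elements killing `y`
  set z₀ : T ⊗[𝒪] MonoidAlgebra 𝒪 G :=
    ∑ k ∈ Finset.range n, ((1 : T) ⊗ₜ[𝒪] MonoidAlgebra.of 𝒪 G g₀) ^ k with hz₀
  have hΘz₀ : Θ z₀ = ∑ k ∈ Finset.range n, d g₀ ^ k := by
    rw [hz₀, map_sum]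
    refine Finset.sum_congr rfl fun k _ => ?_
    rw [map_pow, thetaH673_right]
  obtain ⟨𝔔, h𝔔p, hZ𝔔, h𝔔T, h𝔔𝒪⟩ := exists_prime_over_ann
    (Algebra.TensorProduct.includeLeft : T →ₐ[𝒪] T ⊗[𝒪] MonoidAlgebra 𝒪 G) htf y hy
    (fun s t hst => by
      rw [hsmul, thetaH673_left] at hst
      rw [hsmul, hsmul, thetaH673_left, thetaH673_left]
      exact hprime s t hst)
    ({b | Θ b = 0} ∪ {z₀})
    (fun z hz => by
      rcases hz with hz | hz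
      · rw [hsmul, (hz : Θ z = 0), LinearMap.zero_apply]
      · rw [Set.mem_singleton_iff.mp hz, hsmul, hΘz₀]
        exact hΦ)
  haveI := h𝔔p
  obtain ⟨𝒪', i1, i2, i3, i4, i5, i6, i7, ev, hloc, hinj, hev⟩ :=
    exists_dvr_point 𝒪 (T ⊗[𝒪] MonoidAlgebra 𝒪 G) 𝔔 h𝔔𝒪
  refine ⟨𝒪', i1, i2, i3, i4, i5, i6, i7, ev, hloc, hinj, ?_, ?_, ?_, ?_⟩
  · haveI := hloc
    exact isLocalHom_of_integral_h673 𝒪 T 𝒪'
      (ev.comp (Algebra.TensorProduct.includeLeft :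
        T →ₐ[𝒪] T ⊗[𝒪] MonoidAlgebra 𝒪 G)).toRingHom
      (fun c => (ev.comp (Algebra.TensorProduct.includeLeft :
        T →ₐ[𝒪] T ⊗[𝒪] MonoidAlgebra 𝒪 G)).commutes c)
  · intro s
    rw [hev, ← Algebra.TensorProduct.includeLeft_apply (R := 𝒪) (S := 𝒪), h𝔔T, hsmul,
      thetaH673_left]
  · have h1 : ev z₀ = 0 := (hev z₀).mpr (hZ𝔔 (Or.inr rfl))
    rw [hz₀, map_sum] at h1
    rw [← h1]
    refine Finset.sum_congr rfl fun k _ => ?_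
    rw [map_pow]
  · intro b hb
    exact (hev b).mpr (hZ𝔔 (Or.inl hb))

end Fermat.Agent.S59.TW.Aut.H673
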